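import Mathlib
import Fermat.Agent.H22.ES.KLModel
import Fermat.Prelude.Def_ModularCurve_HeckeOperator

/-!
# P-SS block [A] : the TWO-SIDED `q`-expansion principle at `q ‖ N` — statements (helper82)

Level `N = M q`, `q` prime, `q ∤ M`.  `K₁` a number field, `A₀` a discrete valuation ring of
`K₁` over `q`, `E₀ = ModelField K₁ (M q) ⊆ K₁((t))`.

The special fibre of `X₀(M q)` at `q` has two components; they correspond to the two extensions
`v_∞`, `v_0 = v_∞ ∘ W_q` of the Gauss valuation of `K₁(x)` to `E₀`, where `v_∞` is the Gauss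
valuation of `q`-expansions and `W_q` is the Atkin-Lehner automorphism (`W ∘ α = β`,
`W ∘ β = α` for the two degeneracy maps `α, β : F_M → F_{M q}` of the prelude; it exists by
`Fermat.Agent.H41.exists_atkinLehnerBar`).

* `IsAtkinLehnerModel K₁ M q W` : `W` is the Atkin-Lehner automorphism of `E₀`.
* `TwistIndepStatement` (row SS-A2a, Mathlib + prelude `qExpand` only) : independence of
  `θ(t^q)^i x^j` (`i < d`, `j < q`) over `k[x(t^q)]` from independence of `θ^i` over `k[x]`.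
* `ModelQExp2Statement M q x₀` (row SS-A2) : `V_∞ ∩ V_0 ⊆ C(x)`, i.e. an element of `E₀` which is
  a quotient `a / b` of elements with `A₀`-integral `q`-expansions (`b` primitive) and also a
  quotient `a' / b'` with `W a'`, `W b'` having `A₀`-integral `q`-expansions (`W b'` primitive)
  lies in the Gauss closure `C(x)`.

The generic core is `Fermat.Agent.H82.SS.qexp2_core` (module `QExp2Core`, proved).
-/

set_option autoImplicit false

noncomputable section

namespace Fermat.Agent.H82.SS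

open Polynomial ModularCurve AlgebraicCurve
open Fermat.Agent.H22.KL

/-- `W` is the Atkin-Lehner automorphism at `q` of the modular function field of level `M q`
over `K₁`: it exchanges the two degeneracy maps. -/
def IsAtkinLehnerModel (K₁ : Type) [Field K₁] [Algebra ℚ K₁] (M q : ℕ) [NeZero M] [NeZero q]
    (W : ModelField K₁ (M * q) ≃ₐ[K₁] ModelField K₁ (M * q)) : Prop :=
  (∀ f, W (heckeAlphaBar K₁ M q f) = heckeBetaBar K₁ M q f) ∧
  (∀ f, W (heckeBetaBar K₁ M q f) = heckeAlphaBar K₁ M q f)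

/-- **SS-A2a** (Mathlib + prelude `qExpand` only).  `k` ANY field, `q` prime, `x θ ∈ k((t))`.
If `1, θ, …, θ^(d-1)` are independent over `k[x]` and `x ∉ k((t^q))`, then the `d q` series
`θ(t^q)^i x^j` (`i < d`, `j < q`) are independent over `k[x(t^q)]`.
(Proof: `c_j := Σ_i p_ij(x(t^q)) θ(t^q)^i = (Σ_i p_ij(x) θ^i)(t^q) ∈ L := k((t^q))`;
`[k((t)) : L] = q` is prime and `x ∉ L`, so `1, x, …, x^(q-1)` are independent over `L`; hence
all `c_j = 0`; `qExpand` is injective.) -/
def TwistIndepStatement : Prop :=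
  ∀ (k : Type) [Field k] (q : ℕ) [NeZero q], q.Prime →
    ∀ (x θ : LaurentSeries k) (d : ℕ),
      (∀ p : Fin d → k[X], ∑ i, aeval x (p i) * θ ^ (i : ℕ) = 0 → ∀ i, p i = 0) →
      (∃ m : ℤ, ¬ (q : ℤ) ∣ m ∧ x.coeff m ≠ 0) →
      ∀ p : Fin d → Fin q → k[X],
        ∑ i, ∑ j, aeval (qExpand k q x) (p i j) * (qExpand k q θ) ^ (i : ℕ) * x ^ (j : ℕ) = 0 →
        ∀ i j, p i j = 0

/-- **SS-A2, the two-sided `q`-expansion principle** at level `M q` in the chart `x`:
`V_∞ ∩ V_0 ⊆ C(x)`. -/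
def ModelQExp2Statement (M q : ℕ) [NeZero M] [NeZero q] (x₀ : LaurentSeries ℚ) : Prop :=
  ∀ (K₁ : Type) [Field K₁] [Algebra ℚ K₁] [FiniteDimensional ℚ K₁]
    (A₀ : Type) [CommRing A₀] [IsDomain A₀] [IsDiscreteValuationRing A₀]
    [Algebra A₀ K₁] [IsFractionRing A₀ K₁]
    [Algebra A₀ (ModelField K₁ (M * q))] [IsScalarTower A₀ K₁ (ModelField K₁ (M * q))],
    ¬ IsUnit ((q : ℕ) : A₀) →
    ∀ (ϖ : A₀), Irreducible ϖ →
    ∀ (x : ModelField K₁ (M * q)), (x : LaurentSeries K₁) = coeffEmb K₁ x₀ →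
    ∀ (W : ModelField K₁ (M * q) ≃ₐ[K₁] ModelField K₁ (M * q)), IsAtkinLehnerModel K₁ M q W →
    ∀ (a b a' b' : ModelField K₁ (M * q)),
      (∀ n : ℤ, (a : LaurentSeries K₁).coeff n ∈ (algebraMap A₀ K₁).range) →
      (∀ n : ℤ, (b : LaurentSeries K₁).coeff n ∈ (algebraMap A₀ K₁).range) →
      (∃ (n : ℤ) (c : A₀), IsUnit c ∧ algebraMap A₀ K₁ c = (b : LaurentSeries K₁).coeff n) →
      (∀ n : ℤ, (W a' : LaurentSeries K₁).coeff n ∈ (algebraMap A₀ K₁).range) →
      (∀ n : ℤ, (W b' : LaurentSeries K₁).coeff n ∈ (algebraMap A₀ K₁).range) →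
      (∃ (n : ℤ) (c : A₀), IsUnit c ∧ algebraMap A₀ K₁ c = (W b' : LaurentSeries K₁).coeff n) →
      a * b' = a' * b →
      a / b ∈ gaussClosure A₀ (ModelField K₁ (M * q)) ϖ x

end Fermat.Agent.H82.SS
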