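import Mathlib
import Fermat.Agent.H82.SS.Model
import Fermat.Agent.H45.SS.Hartogs
import Fermat.Prelude.Def_ModularCurve_ArithmeticGalois

/-!
# P-SS : the MODEL-LEVEL CONTRACT between the geometric rows and the assembly (helper82)

Setting (the concrete model of P-ES, `Fermat.Agent.H22.KL.KLModel`): `K₁` a number field, `A₀` a
discrete valuation ring with fraction field `K₁` over the prime `q`, level `N = M q`, `q ∤ M`,
`E₀ = ModelField K₁ (M q) ⊆ K₁((t))`, chart coordinate `x` with `q`-expansion `coeffEmb K₁ x₀`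
(`x₀ = jq`), `σ₁ : K₁ ≃ₐ[ℚ] K₁` an "inertia element" of `A₀` acting on `E₀` coefficientwise.

Exact Lean targets:

* `ModelAtkinLehnerExistsStatement`, `ModelAtkinLehnerCommStatement` : adapters for `W_q`.
* `ModelGaussConverseStatement M q x₀` : `C(x) ⊆ V_∞ ∩ V_0` (converse of `ModelQExp2Statement`).
* `ModelGaussSDStatement M q x₀` (row SSH-5) : the second difference `σ²(f) f / σ(f)²` lies in
  `C(x)` and is `≡ 1` modulo `ϖ C(x)`.
* `ModelLocalPrincStatement M q x₀` (combined output of rows SSH-1, SSH-6 … SSH-11) : local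
  principalisation of the second difference in both charts, for `f` whose divisor is divisible
  by `r` and supported on `K₁`-rational places.
* `ModelSecondDiffStatement M q` (input of row SSH-12) : the second difference is an `r`-th
  power in `E₀`.
-/

set_option autoImplicit false

noncomputable section

namespace Fermat.Agent.H82.SS

open Polynomial ModularCurve AlgebraicCurve
open Fermat.Agent.H22.KL

/-- `σ₁` preserves `A₀` and acts trivially on its residue field. -/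
def IsModelInertia (K₁ : Type) [Field K₁] [Algebra ℚ K₁] (A₀ : Type) [CommRing A₀]
    [Algebra A₀ K₁] (σ₁ : K₁ ≃ₐ[ℚ] K₁) : Prop :=
  ∀ a : A₀, ∃ b : A₀, algebraMap A₀ K₁ b = σ₁ (algebraMap A₀ K₁ a) ∧ ¬ IsUnit (b - a)

/-- The coefficientwise action of `σ₁` on the model field of level `N`. -/
abbrev modelSigma (K₁ : Type) [Field K₁] [Algebra ℚ K₁] (N : ℕ) (σ₁ : K₁ ≃ₐ[ℚ] K₁) :
    ModelField K₁ N ≃+* ModelField K₁ N :=
  arithmeticRingAut (L := K₁) (F₀ := modularFunctionFieldFull N) σ₁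

/-- The second difference `s²(f) f / s(f)²`. -/
def secondDiff {E : Type*} [Field E] (s : E ≃+* E) (f : E) : E := s (s f) * f / (s f) ^ 2

/-- The place `P` of `E / K₁` is `K₁`-rational: its residue field is `K₁`. -/
def IsRationalPlace {K₁ E : Type*} [Field K₁] [Field E] [Algebra K₁ E] (P : Place K₁ E) : Prop :=
  ∀ z ∈ P.toValuationSubring, ∃ c : K₁, z - algebraMap K₁ E c ∈ P.toValuationSubring.nonunits

/-- **Existence of `W_q` over a number field.** -/
def ModelAtkinLehnerExistsStatement : Prop :=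
  ∀ (M q : ℕ) [NeZero M] [NeZero q], Nat.Coprime M q →
    ∀ (K₁ : Type) [Field K₁] [Algebra ℚ K₁] [FiniteDimensional ℚ K₁],
      ∃ W : ModelField K₁ (M * q) ≃ₐ[K₁] ModelField K₁ (M * q), IsAtkinLehnerModel K₁ M q W

/-- **`W_q` commutes with the coefficientwise Galois action.** -/
def ModelAtkinLehnerCommStatement : Prop :=
  ∀ (M q : ℕ) [NeZero M] [NeZero q], Nat.Coprime M q →
    ∀ (K₁ : Type) [Field K₁] [Algebra ℚ K₁]
      (W : ModelField K₁ (M * q) ≃ₐ[K₁] ModelField K₁ (M * q)), IsAtkinLehnerModel K₁ M q W →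
      ∀ (σ₁ : K₁ ≃ₐ[ℚ] K₁) (z : ModelField K₁ (M * q)),
        W (modelSigma K₁ (M * q) σ₁ z) = modelSigma K₁ (M * q) σ₁ (W z)

/-- **`C(x) ⊆ V_∞ ∩ V_0`**: every element of the Gauss closure is a quotient of `q`-integral
elements with primitive denominator, at the cusp `∞` and (after `W`) at the cusp `0`. -/
def ModelGaussConverseStatement (M q : ℕ) [NeZero M] [NeZero q] (x₀ : LaurentSeries ℚ) : Prop :=
  ∀ (K₁ : Type) [Field K₁] [Algebra ℚ K₁] [FiniteDimensional ℚ K₁]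
    (A₀ : Type) [CommRing A₀] [IsDomain A₀] [IsDiscreteValuationRing A₀]
    [Algebra A₀ K₁] [IsFractionRing A₀ K₁]
    [Algebra A₀ (ModelField K₁ (M * q))] [IsScalarTower A₀ K₁ (ModelField K₁ (M * q))],
    ¬ IsUnit ((q : ℕ) : A₀) →
    ∀ (ϖ : A₀), Irreducible ϖ →
    ∀ (x : ModelField K₁ (M * q)), (x : LaurentSeries K₁) = coeffEmb K₁ x₀ →
    ∀ (W : ModelField K₁ (M * q) ≃ₐ[K₁] ModelField K₁ (M * q)), IsAtkinLehnerModel K₁ M q W →
    ∀ z ∈ gaussClosure A₀ (ModelField K₁ (M * q)) ϖ x,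
      (∃ a b : ModelField K₁ (M * q),
        (∀ n : ℤ, (a : LaurentSeries K₁).coeff n ∈ (algebraMap A₀ K₁).range) ∧
        (∀ n : ℤ, (b : LaurentSeries K₁).coeff n ∈ (algebraMap A₀ K₁).range) ∧
        (∃ (n : ℤ) (c : A₀), IsUnit c ∧ algebraMap A₀ K₁ c = (b : LaurentSeries K₁).coeff n) ∧
        z * b = a) ∧
      (∃ a' b' : ModelField K₁ (M * q),
        (∀ n : ℤ, (W a' : LaurentSeries K₁).coeff n ∈ (algebraMap A₀ K₁).range) ∧
        (∀ n : ℤ, (W b' : LaurentSeries K₁).coeff n ∈ (algebraMap A₀ K₁).range) ∧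
        (∃ (n : ℤ) (c : A₀), IsUnit c ∧
          algebraMap A₀ K₁ c = (W b' : LaurentSeries K₁).coeff n) ∧
        z * b' = a')

/-- **SSH-5 (GAUSS-SD)**: for every `f ≠ 0` the second difference `u = σ²(f) f / σ(f)²` lies in
the Gauss closure `C(x)` and `u - 1 ∈ ϖ C(x)`. -/
def ModelGaussSDStatement (M q : ℕ) [NeZero M] [NeZero q] (x₀ : LaurentSeries ℚ) : Prop :=
  ∀ (K₁ : Type) [Field K₁] [Algebra ℚ K₁] [FiniteDimensional ℚ K₁]
    (A₀ : Type) [CommRing A₀] [IsDomain A₀] [IsDiscreteValuationRing A₀]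
    [Algebra A₀ K₁] [IsFractionRing A₀ K₁]
    [Algebra A₀ (ModelField K₁ (M * q))] [IsScalarTower A₀ K₁ (ModelField K₁ (M * q))],
    ¬ IsUnit ((q : ℕ) : A₀) →
    ∀ (ϖ : A₀), Irreducible ϖ →
    ∀ (x : ModelField K₁ (M * q)), (x : LaurentSeries K₁) = coeffEmb K₁ x₀ →
    ∀ (σ₁ : K₁ ≃ₐ[ℚ] K₁), IsModelInertia K₁ A₀ σ₁ →
    ∀ f : ModelField K₁ (M * q), f ≠ 0 →
      secondDiff (modelSigma K₁ (M * q) σ₁) f ∈ gaussClosure A₀ (ModelField K₁ (M * q)) ϖ x ∧
      PiDvdSet A₀ (ModelField K₁ (M * q)) ϖ (gaussClosure A₀ (ModelField K₁ (M * q)) ϖ x)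
        (secondDiff (modelSigma K₁ (M * q) σ₁) f - 1)

/-- **LOCAL PRINCIPALISATION of second differences** (combined output of the geometric rows
SSH-1, SSH-6 … SSH-11): if the divisor of `f` is divisible by `r` and supported on `K₁`-rational
places, the second difference of `f` is locally principalisable in both charts. -/
def ModelLocalPrincStatement (M q : ℕ) [NeZero M] [NeZero q] (x₀ : LaurentSeries ℚ) : Prop :=
  ∀ (K₁ : Type) [Field K₁] [Algebra ℚ K₁] [FiniteDimensional ℚ K₁]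
    (A₀ : Type) [CommRing A₀] [IsDomain A₀] [IsDiscreteValuationRing A₀]
    [Algebra A₀ K₁] [IsFractionRing A₀ K₁]
    [Algebra A₀ (ModelField K₁ (M * q))] [IsScalarTower A₀ K₁ (ModelField K₁ (M * q))],
    ¬ IsUnit ((q : ℕ) : A₀) →
    ∀ (ϖ : A₀), Irreducible ϖ →
    ∀ (x : ModelField K₁ (M * q)), (x : LaurentSeries K₁) = coeffEmb K₁ x₀ →
    ∀ (σ₁ : K₁ ≃ₐ[ℚ] K₁), IsModelInertia K₁ A₀ σ₁ →
    ∀ (r : ℕ), 0 < r → IsUnit ((r : ℕ) : A₀) →
    ∀ f : ModelField K₁ (M * q), f ≠ 0 →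
      (∀ P : Place K₁ (ModelField K₁ (M * q)), (r : ℤ) ∣ P.ord f) →
      (∀ P : Place K₁ (ModelField K₁ (M * q)), P.ord f ≠ 0 → IsRationalPlace P) →
      Fermat.Agent.H45.LocalPrinc A₀ (ModelField K₁ (M * q)) ϖ x r
          (secondDiff (modelSigma K₁ (M * q) σ₁) f) ∧
        Fermat.Agent.H45.LocalPrinc A₀ (ModelField K₁ (M * q)) ϖ x⁻¹ r
          (secondDiff (modelSigma K₁ (M * q) σ₁) f)

/-- **The model-level second difference statement** (what the descent row SSH-12 consumes):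
over a number field `K₁` containing the `r`-th roots of unity, if the divisor of `f` is divisible
by `r` and supported on rational places and the leading coefficient of the second difference is
an `r`-th power in `K₁`, the second difference of `f` is an `r`-th power in `E₀`. -/
def ModelSecondDiffStatement (M q : ℕ) [NeZero M] [NeZero q] : Prop :=
  ∀ (K₁ : Type) [Field K₁] [Algebra ℚ K₁] [FiniteDimensional ℚ K₁]
    (A₀ : Type) [CommRing A₀] [IsDomain A₀] [IsDiscreteValuationRing A₀]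
    [Algebra A₀ K₁] [IsFractionRing A₀ K₁]
    [Algebra A₀ (ModelField K₁ (M * q))] [IsScalarTower A₀ K₁ (ModelField K₁ (M * q))],
    ¬ IsUnit ((q : ℕ) : A₀) →
    ∀ (σ₁ : K₁ ≃ₐ[ℚ] K₁), IsModelInertia K₁ A₀ σ₁ →
    ∀ (r : ℕ), r.Prime → IsUnit ((r : ℕ) : A₀) → (∃ ζ : K₁, IsPrimitiveRoot ζ r) →
    ∀ f : ModelField K₁ (M * q), f ≠ 0 →
      (∀ P : Place K₁ (ModelField K₁ (M * q)), (r : ℤ) ∣ P.ord f) →
      (∀ P : Place K₁ (ModelField K₁ (M * q)), P.ord f ≠ 0 → IsRationalPlace P) →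
      (∃ γ : K₁, γ ^ r =
        ((secondDiff (modelSigma K₁ (M * q) σ₁) f : ModelField K₁ (M * q)) :
          LaurentSeries K₁).leadingCoeff) →
      ∃ w : ModelField K₁ (M * q), w ^ r = secondDiff (modelSigma K₁ (M * q) σ₁) f

end Fermat.Agent.H82.SS
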