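import Mathlib
import Fermat.Agent.H22.ES.KLSetting
import Fermat.Agent.H87.KL.KumGauss
import Fermat.Agent.H48.KL.QExpCore

/-!
# P-SS block [A], part 1 : the generic core of the TWO-SIDED `q`-expansion principle (helper82)

`E` a field with TWO embeddings `ι₁ ι₂ : E → K₁((q))` (in the application: the `q`-expansion at
the cusp `∞` and the `q`-expansion at the cusp `0`, i.e. `ι₂ = ι₁ ∘ W_q`), `A₀` a discrete
valuation ring with fraction field `K₁` and residue field `k₀`.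

If `E` is spanned over `K₁(x)` by `e₁, …, e_n`, where `x` and the `e_i` have `A₀`-integral
expansions along BOTH embeddings, the `e_i` are integral over `A₀[x]`, and the PAIRS of
reductions `(ē_i¹, ē_i²) ∈ k₀((q)) × k₀((q))` are independent over `k₀[X]` (acting through
`(x̄¹, x̄²)`), then every `z ∈ E` which is a quotient of `ι₁`-integral elements with primitive
denominator AND a quotient of `ι₂`-integral elements with primitive denominator lies in the
Gauss closure `C(x)`:   `V_∞ ∩ V_0 ⊆ C(x)`.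

This is the two-valuation twin of `Fermat.Agent.H48.QExp.qexp_core` (P-ES row 497).
-/

set_option autoImplicit false
set_option maxSynthPendingDepth 3
set_option linter.style.haveILetI false
set_option linter.unusedSectionVars false

noncomputable section

namespace Fermat.Agent.H82.SS

open Polynomial ModularCurve
open Fermat.Agent.H22.KL
open Fermat.Agent.H67.KLConn (PiDvd)
open Fermat.Agent.H87.KL
open Fermat.Agent.H48.QExp

variable {K₁ : Type} [Field K₁] {A₀ : Type} [CommRing A₀] [IsDomain A₀]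
  [IsDiscreteValuationRing A₀] [Algebra A₀ K₁] [IsFractionRing A₀ K₁]
  {E : Type} [Field E] [Algebra K₁ E] [Algebra A₀ E] [IsScalarTower A₀ K₁ E]

/-- **One side of the reduction step.**  If `h(x) a = b Σ p_i(x) e_i` in `E`, where `a`, `b`,
`x`, `e_i` have `A₀`-integral expansions along `ι`, `b` is primitive and `ϖ ∣ h`, then
`Σ p̄_i(x̄) ē_i = 0` in `k₀((q))`. -/
theorem qexp2_reduce (ι : E →ₐ[K₁] LaurentSeries K₁) (ϖ : A₀)
    (x : E) (xA : LaurentSeries A₀)
    (hxA : coeffMap (algebraMap A₀ K₁) xA = ι x)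
    (n : ℕ) (e : Fin n → E) (eA : Fin n → LaurentSeries A₀)
    (heA : ∀ i, coeffMap (algebraMap A₀ K₁) (eA i) = ι (e i))
    (a b : E)
    (ha : ∀ m : ℤ, (ι a).coeff m ∈ (algebraMap A₀ K₁).range)
    (hb : ∀ m : ℤ, (ι b).coeff m ∈ (algebraMap A₀ K₁).range)
    (hbu : ∃ (m : ℤ) (c : A₀), IsUnit c ∧ algebraMap A₀ K₁ c = (ι b).coeff m)
    (h : A₀[X]) (p : Fin n → A₀[X])
    (heq : aeval x h * a = b * ∑ i, aeval x (p i) * e i)
    (hd : h.map (IsLocalRing.residue A₀) = 0) :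
    ∑ i, aeval (coeffMap (IsLocalRing.residue A₀) xA) ((p i).map (IsLocalRing.residue A₀)) *
      coeffMap (IsLocalRing.residue A₀) (eA i) = 0 := by
  classical
  have hφ : Function.Injective (algebraMap A₀ K₁) := IsFractionRing.injective A₀ K₁
  have hcm := coeffMap_inj (algebraMap A₀ K₁) hφ
  obtain ⟨aA, haA⟩ := exists_coeffMap_eq (algebraMap A₀ K₁) hφ (ι a) ha
  obtain ⟨bA, hbA⟩ := exists_coeffMap_eq (algebraMap A₀ K₁) hφ (ι b) hb
  obtain ⟨m₀, u, hu, hum⟩ := hbu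
  have hbAu : bA.coeff m₀ = u := by
    apply hφ
    rw [hum, ← hbA, coeffMap_coeff]
  have hbred : coeffMap (IsLocalRing.residue A₀) bA ≠ 0 := by
    apply coeffMap_ne_zero_of_coeff _ bA m₀
    rw [hbAu]
    intro h0
    rw [IsLocalRing.residue_eq_zero_iff] at h0
    exact (IsLocalRing.mem_maximalIdeal u).1 h0 hu
  -- transport the equation to `A₀((q))`
  have heqA : aeval xA h * aA = bA * ∑ i, aeval xA (p i) * eA i := by
    apply hcm
    rw [map_mul, map_mul, map_sum, haA, hbA, ← map_aeval_eq_coeffMap ι x xA hxA, ← map_mul,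
      heq, map_mul, map_sum]
    congr 1
    refine Finset.sum_congr rfl fun i _ => ?_
    rw [map_mul, map_mul, heA, map_aeval_eq_coeffMap ι x xA hxA]
  -- reduce modulo `ϖ`
  have hred := congrArg (coeffMap (IsLocalRing.residue A₀)) heqA
  rw [map_mul, map_mul, coeffMap_aeval, hd, map_zero, zero_mul, map_sum] at hred
  have h2 := (mul_eq_zero.1 hred.symm).resolve_left hbred
  rw [← h2]
  refine Finset.sum_congr rfl fun i _ => ?_
  rw [map_mul, coeffMap_aeval]

/-- **The generic core of the two-sided `q`-expansion principle**: `V_∞ ∩ V_0 ⊆ C(x)`. -/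
theorem qexp2_core (ι₁ ι₂ : E →ₐ[K₁] LaurentSeries K₁) (ϖ : A₀) (hϖ : Irreducible ϖ)
    (x : E) (xA₁ xA₂ : LaurentSeries A₀)
    (hxA₁ : coeffMap (algebraMap A₀ K₁) xA₁ = ι₁ x)
    (hxA₂ : coeffMap (algebraMap A₀ K₁) xA₂ = ι₂ x)
    (hx : Transcendental A₀ x) (n : ℕ) (e : Fin n → E)
    (eA₁ eA₂ : Fin n → LaurentSeries A₀)
    (heA₁ : ∀ i, coeffMap (algebraMap A₀ K₁) (eA₁ i) = ι₁ (e i))
    (heA₂ : ∀ i, coeffMap (algebraMap A₀ K₁) (eA₂ i) = ι₂ (e i))
    (he : ∀ i, e i ∈ chartClosure A₀ E x)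
    (hspan : ∀ y : E, ∃ c : Fin n → E, (∀ i, c i ∈ chartField A₀ E x) ∧
      y = ∑ i, c i * e i)
    (hGI : ∀ p : Fin n → (IsLocalRing.ResidueField A₀)[X],
      ∑ i, aeval (coeffMap (IsLocalRing.residue A₀) xA₁) (p i) *
        coeffMap (IsLocalRing.residue A₀) (eA₁ i) = 0 →
      ∑ i, aeval (coeffMap (IsLocalRing.residue A₀) xA₂) (p i) *
        coeffMap (IsLocalRing.residue A₀) (eA₂ i) = 0 → ∀ i, p i = 0)
    (a b a' b' : E)
    (ha : ∀ m : ℤ, (ι₁ a).coeff m ∈ (algebraMap A₀ K₁).range)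
    (hb : ∀ m : ℤ, (ι₁ b).coeff m ∈ (algebraMap A₀ K₁).range)
    (hbu : ∃ (m : ℤ) (c : A₀), IsUnit c ∧ algebraMap A₀ K₁ c = (ι₁ b).coeff m)
    (ha' : ∀ m : ℤ, (ι₂ a').coeff m ∈ (algebraMap A₀ K₁).range)
    (hb' : ∀ m : ℤ, (ι₂ b').coeff m ∈ (algebraMap A₀ K₁).range)
    (hbu' : ∃ (m : ℤ) (c : A₀), IsUnit c ∧ algebraMap A₀ K₁ c = (ι₂ b').coeff m)
    (hz : a * b' = a' * b) :
    a / b ∈ gaussClosure A₀ E ϖ x := by
  classical
  have hφ : Function.Injective (algebraMap A₀ K₁) := IsFractionRing.injective A₀ K₁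
  have hAE : Function.Injective (algebraMap A₀ E) := by
    rw [IsScalarTower.algebraMap_eq A₀ K₁ E]
    exact (algebraMap K₁ E).injective.comp hφ
  have hne : ∀ (ι : E →ₐ[K₁] LaurentSeries K₁) (b : E),
      (∃ (m : ℤ) (c : A₀), IsUnit c ∧ algebraMap A₀ K₁ c = (ι b).coeff m) → b ≠ 0 := by
    rintro ι b ⟨m, c, hc, hcm⟩ rfl
    rw [map_zero, HahnSeries.coeff_zero] at hcm
    have : c = 0 := hφ (by rw [hcm, map_zero])
    exact hc.ne_zero this
  have hb0 : b ≠ 0 := hne ι₁ b hbu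
  have hb0' : b' ≠ 0 := hne ι₂ b' hbu'
  have hzz : a / b = a' / b' := by
    rw [div_eq_div_iff hb0 hb0']
    exact hz
  -- coordinates of `a / b`
  obtain ⟨c, hc, hy⟩ := hspan (a / b)
  obtain ⟨h₀, hh₀, hp₀⟩ := exists_common_denominator (A := A₀) Finset.univ x c
    fun i _ => hc i
  choose p₀ hp₀ using fun i => hp₀ i (Finset.mem_univ i)
  obtain ⟨h, p, hh, hp, hnorm⟩ := exists_normalized hAE hϖ x c h₀ hh₀ p₀ hp₀
  -- the equation `h(x) * (a / b) = ∑ p_i(x) e_i`
  have hsum : aeval x h * (a / b) = ∑ i, aeval x (p i) * e i := by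
    rw [hy, Finset.mul_sum]
    refine Finset.sum_congr rfl fun i _ => ?_
    rw [← hp i]
    ring
  have heq : aeval x h * a = b * ∑ i, aeval x (p i) * e i := by
    rw [← hsum]
    field_simp
  have heq' : aeval x h * a' = b' * ∑ i, aeval x (p i) * e i := by
    rw [← hsum, hzz]
    field_simp
  -- `ϖ ∤ h`
  have hnd : ¬ C ϖ ∣ h := by
    intro hd
    apply hnorm
    refine ⟨hd, ?_⟩
    have hd0 : h.map (IsLocalRing.residue A₀) = 0 := (map_residue_eq_zero_iff hϖ h).2 hd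
    have h1 := qexp2_reduce ι₁ ϖ x xA₁ hxA₁ n e eA₁ heA₁ a b ha hb hbu h p heq hd0
    have h2 := qexp2_reduce ι₂ ϖ x xA₂ hxA₂ n e eA₂ heA₂ a' b' ha' hb' hbu' h p heq' hd0
    intro i
    exact (map_residue_eq_zero_iff hϖ (p i)).1 (hGI _ h1 h2 i)
  -- conclusion
  refine ⟨aeval x h, aeval_mem_chartRing x h,
    fun hd => hnd ((piDvd_aeval_iff hx ϖ h).1 hd), ?_⟩
  rw [hsum]
  refine Subalgebra.sum_mem _ fun i _ => ?_
  exact Subalgebra.mul_mem _ ((mem_chartClosure_iff x _).2 (IntX.map x (p i))) (he i)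

end Fermat.Agent.H82.SS
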