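import Fermat.Agent.H82.SS.Contract
import Fermat.Agent.H93.KL.AsmStepB

/-!
# P-SS : model-level assembly (helper82)

`modelSecondDiff_of` : the model-level second difference statement `ModelSecondDiffStatement M q`
from the Gauss condition (`ModelGaussSDStatement`, row SSH-5), the local principalisation
(`ModelLocalPrincStatement`, rows SSH-1, SSH-6 … SSH-11) and helper45's unconditional abstract
key lemma `Fermat.Agent.H45.klssAbs_prime`.  Twin of `Fermat.Agent.H22.KL.klAsm_core`.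
-/

set_option autoImplicit false
set_option linter.style.haveILetI false

noncomputable section

namespace Fermat.Agent.H82.SS

open Polynomial ModularCurve AlgebraicCurve
open Fermat.Agent.H22.KL

/-- **Finiteness of the model field over `K₁(x)`** (exact shape of the hypothesis `hfd` of
`klssAbs_prime`). -/
def ModelFiniteStatement (N : ℕ) (x₀ : LaurentSeries ℚ) : Prop :=
  ∀ (K₁ : Type) [Field K₁] [Algebra ℚ K₁]
    (A₀ : Type) [CommRing A₀] [IsDomain A₀] [Algebra A₀ K₁] [IsFractionRing A₀ K₁]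
    [Algebra A₀ (ModelField K₁ N)] [IsScalarTower A₀ K₁ (ModelField K₁ N)]
    (x : ModelField K₁ N), (x : LaurentSeries K₁) = coeffEmb K₁ x₀ →
    ∃ n : ℕ, Nonempty (Module.Basis (Fin n) (chartField A₀ (ModelField K₁ N) x) (ModelField K₁ N))

theorem ssAsm_coe_secondDiff {K₁ : Type} [Field K₁] [Algebra ℚ K₁] (N : ℕ) (σ₁ : K₁ ≃ₐ[ℚ] K₁)
    (f : ModelField K₁ N) :
    ((secondDiff (modelSigma K₁ N σ₁) f : ModelField K₁ N) : LaurentSeries K₁)
      = coeffMap (σ₁ : K₁ →+* K₁) (coeffMap (σ₁ : K₁ →+* K₁) (f : LaurentSeries K₁))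
          * (f : LaurentSeries K₁) / (coeffMap (σ₁ : K₁ →+* K₁) (f : LaurentSeries K₁)) ^ 2 :=
  rfl

/-- The second difference of a nonzero series has order `0`. -/
theorem ssAsm_order_secondDiff {K₁ : Type} [Field K₁] [Algebra ℚ K₁] (N : ℕ) (σ₁ : K₁ ≃ₐ[ℚ] K₁)
    (f : ModelField K₁ N) (hf : f ≠ 0) :
    ((secondDiff (modelSigma K₁ N σ₁) f : ModelField K₁ N) : LaurentSeries K₁) ≠ 0 ∧
    ((secondDiff (modelSigma K₁ N σ₁) f : ModelField K₁ N) : LaurentSeries K₁).order = 0 := by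
  have hσ : Function.Injective ((σ₁ : K₁ →+* K₁)) := (σ₁ : K₁ →+* K₁).injective
  have hfL : (f : LaurentSeries K₁) ≠ 0 := fun h => hf (Subtype.ext h)
  set g : LaurentSeries K₁ := coeffMap (σ₁ : K₁ →+* K₁) (f : LaurentSeries K₁) with hg
  set g2 : LaurentSeries K₁ := coeffMap (σ₁ : K₁ →+* K₁) g with hg2
  have hg0 : g ≠ 0 := fun h =>
    hfL ((Fermat.Agent.H93.KL.coeffMap_eq_zero_iff _ hσ _).mp h)
  have hg20 : g2 ≠ 0 := fun h =>
    hg0 ((Fermat.Agent.H93.KL.coeffMap_eq_zero_iff _ hσ _).mp h)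
  have hog : g.order = (f : LaurentSeries K₁).order :=
    Fermat.Agent.H93.KL.order_coeffMap _ hσ _
  have hog2 : g2.order = g.order := Fermat.Agent.H93.KL.order_coeffMap _ hσ _
  rw [ssAsm_coe_secondDiff]
  have hu0 : g2 * (f : LaurentSeries K₁) / g ^ 2 ≠ 0 :=
    div_ne_zero (mul_ne_zero hg20 hfL) (pow_ne_zero 2 hg0)
  refine ⟨hu0, ?_⟩
  have h1 : g2 * (f : LaurentSeries K₁) / g ^ 2 * g ^ 2 = g2 * (f : LaurentSeries K₁) :=
    div_mul_cancel₀ _ (pow_ne_zero 2 hg0)
  have h2 := congrArg HahnSeries.order h1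
  rw [HahnSeries.order_mul hu0 (pow_ne_zero 2 hg0), HahnSeries.order_mul hg20 hfL,
    HahnSeries.order_pow, hog2, hog] at h2
  have h3 : (2 : ℕ) • (f : LaurentSeries K₁).order = 2 * (f : LaurentSeries K₁).order := by
    rw [nsmul_eq_mul]; norm_num
  rw [h3] at h2
  linarith

/-- **Model-level assembly**: the second difference is an `r`-th power in the model field. -/
theorem modelSecondDiff_of (M q : ℕ) [NeZero M] [NeZero q] (x₀ : LaurentSeries ℚ)
    (hx₀ : x₀ ∈ modularFunctionFieldFull (M * q))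
    (hTr : ModelTranscendentalStatement (M * q) x₀) (hFin : ModelFiniteStatement (M * q) x₀)
    (hSD : ModelGaussSDStatement M q x₀) (hLP : ModelLocalPrincStatement M q x₀)
    (hRoot : ModelRootStatement) (hConst : ModelConstStatement) :
    ModelSecondDiffStatement M q := by
  intro K₁ _ _ _ A₀ _ _ _ _ _ _ _ hq σ₁ hσ₁ r hr hrA hζr f hf hord hrat hγ
  classical
  -- the coordinate
  let x : ModelField K₁ (M * q) := ⟨coeffEmb K₁ x₀, coeffEmb_mem_laurentBaseChange K₁ hx₀⟩
  have hx : (x : LaurentSeries K₁) = coeffEmb K₁ x₀ := rfl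
  obtain ⟨ϖ, hϖ⟩ := IsDiscreteValuationRing.exists_irreducible A₀
  have hinjK : Function.Injective (algebraMap A₀ K₁) := IsFractionRing.injective A₀ K₁
  -- the instances on `Ω = K₁((q))` (canonical algebra structure over `A₀`)
  have hmapΩ : ∀ c : A₀, algebraMap A₀ (LaurentSeries K₁) c
      = algebraMap K₁ (LaurentSeries K₁) (algebraMap A₀ K₁ c) := by
    intro c
    simp [HahnSeries.algebraMap_apply', PowerSeries.algebraMap_apply]
  haveI towK := IsScalarTower.of_algebraMap_eq (R := A₀) (S := K₁) (A := LaurentSeries K₁) hmapΩ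
  haveI towE := IsScalarTower.of_algebraMap_eq (R := A₀) (S := ModelField K₁ (M * q))
    (A := LaurentSeries K₁) (fun c => by
      rw [hmapΩ, IsScalarTower.algebraMap_apply A₀ K₁ (ModelField K₁ (M * q))]
      rfl)
  haveI : CharZero K₁ := charZero_of_injective_algebraMap (algebraMap ℚ K₁).injective
  haveI : CharZero (ModelField K₁ (M * q)) :=
    charZero_of_injective_algebraMap (algebraMap K₁ (ModelField K₁ (M * q))).injective
  have hinjE : Function.Injective (algebraMap A₀ (ModelField K₁ (M * q))) := by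
    rw [IsScalarTower.algebraMap_eq A₀ K₁ (ModelField K₁ (M * q))]
    exact (algebraMap K₁ (ModelField K₁ (M * q))).injective.comp hinjK
  have htr : Transcendental A₀ x := hTr K₁ A₀ x hx
  have hfd := hFin K₁ A₀ x hx
  have hconst : ∀ z : LaurentSeries K₁, IsIntegral A₀ z →
      z ∈ (algebraMap A₀ (LaurentSeries K₁)).range := by
    intro z hz
    have hz1 : IsAlgebraic K₁ z := (hz.tower_top (A := K₁)).isAlgebraic
    obtain ⟨c, rfl⟩ := hConst K₁ z hz1
    have hc : IsIntegral A₀ c :=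
      (isIntegral_algebraMap_iff (algebraMap K₁ (LaurentSeries K₁)).injective).mp hz
    obtain ⟨d, rfl⟩ := IsIntegrallyClosed.isIntegral_iff.mp hc
    exact ⟨d, hmapΩ d⟩
  -- the primitive root of unity in `A₀`
  have hζA : ∃ ζ : A₀, IsPrimitiveRoot ζ r := by
    obtain ⟨ζ, hζ⟩ := hζr
    have hint : IsIntegral A₀ ζ :=
      ⟨X ^ r - 1, monic_X_pow_sub_C 1 hr.ne_zero, by simp [hζ.pow_eq_one]⟩
    obtain ⟨z, hz⟩ := IsIntegrallyClosed.isIntegral_iff.mp hint
    exact ⟨z, IsPrimitiveRoot.of_map_of_injective (f := algebraMap A₀ K₁) (hz ▸ hζ) hinjK⟩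
  -- the Gauss condition and the local principalisation
  obtain ⟨huC, hu1⟩ := hSD K₁ A₀ hq ϖ hϖ x hx σ₁ hσ₁ f hf
  obtain ⟨hLf, hLi⟩ := hLP K₁ A₀ hq ϖ hϖ x hx σ₁ hσ₁ r hr.pos hrA f hf hord hrat
  -- the `r`-th root in `Ω`
  obtain ⟨hu0, huo⟩ := ssAsm_order_secondDiff (M * q) σ₁ f hf
  have hroot : ∃ w : LaurentSeries K₁, w ^ r
      = algebraMap (ModelField K₁ (M * q)) (LaurentSeries K₁)
          (secondDiff (modelSigma K₁ (M * q) σ₁) f) := by
    have hdvd : (r : ℤ) ∣ ((secondDiff (modelSigma K₁ (M * q) σ₁) f : ModelField K₁ (M * q)) :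
        LaurentSeries K₁).order := by
      rw [huo]
      exact dvd_zero _
    exact hRoot K₁ r hr.pos _ hu0 hdvd hγ
  exact Fermat.Agent.H45.klssAbs_prime A₀ (ModelField K₁ (M * q)) (LaurentSeries K₁) hinjE ϖ hϖ
    x htr hfd hconst r hr hrA hζA _ huC hu1 hLf hLi hroot

end Fermat.Agent.H82.SS
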