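import Fermat.Agent.H82.SS.S34Asm2
import Fermat.Agent.H41.SS.OrdFinal3
import Fermat.Agent.H67.SS.CuspUncond
import Fermat.Agent.H8.SS.CrossData
import Fermat.Agent.H59.SS.CrossFinal9

/-!
# P-SS : the point statements at the auxiliary pairs, assembly (helper82)

The ordinary points (helper41, row 648: `Fermat.Agent.H41.SS.ssPlaceGenOrd_all`), the cusps
(helper67, row 649: `Fermat.Agent.H67.SS.ssPlaceGenCusp`) and the crossing points for odd `q`
(helper8 + helper59, rows 647 + 650: `Fermat.Agent.H8.SS.ssPlaceGenCross`) are unconditional.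
Hence the only open input of `SSPointsStatement` (and of S34) is the CROSSING DATA at `q = 2`
(auxiliary level `9 ∣ M`):

* `SSCrossStatement` : at every auxiliary pair `(M, q)` there is `R > 0` with
  `Fermat.Agent.H45.SSPlaceGenCrossStatement M q jq R`;
* `ssPoints_of_cross` : `SSCrossStatement → SSPointsStatement`;
* `ssCross_of_two` : `SSCrossStatement` from the crossing points for `q = 2`;
* `ssCross_of_data9` : `SSCrossStatement` from the crossing data for `q = 2`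
  (`Fermat.Agent.H31.SS.SSCrossData9Statement M 2`, `9 ∣ M`, `M` odd);
* `s34_of_cross`, `s34_of_data9` : the frozen statement S34.
-/

set_option autoImplicit false
set_option linter.unusedSectionVars false
set_option linter.unusedVariables false

noncomputable section

namespace Fermat.Agent.H82.SS

open ModularCurve

/-- **The crossing points at the auxiliary pairs** (the only open input of S34). -/
def SSCrossStatement : Prop :=
  ∀ (M q : ℕ) [NeZero M] [NeZero q], q.Prime → ¬ q ∣ M →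
    (q ≠ 2 → 4 ∣ M) → (q = 2 → 9 ∣ M) →
    ∃ R : ℕ, 0 < R ∧ Fermat.Agent.H45.SSPlaceGenCrossStatement M q jq R

/-- The point statements from the crossing points. -/
theorem ssPoints_of_cross (h : SSCrossStatement) : SSPointsStatement :=
  ssPoints_of_rows
    (fun M q _ _ hq hqM h4 h9 => Fermat.Agent.H41.SS.ssPlaceGenOrd_all M q hq hqM h4 h9)
    h
    (fun M q _ _ hq hqM _ _ =>
      ⟨M, Nat.pos_of_ne_zero (NeZero.ne M), Fermat.Agent.H67.SS.ssPlaceGenCusp M q hq hqM⟩)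

/-- The crossing points from the crossing points at `q = 2` (level-9 twin). -/
theorem ssCross_of_two
    (hTwo : ∀ (M : ℕ) [NeZero M], ¬ 2 ∣ M → 9 ∣ M →
      ∃ R : ℕ, 0 < R ∧ Fermat.Agent.H45.SSPlaceGenCrossStatement M 2 jq R) :
    SSCrossStatement := by
  intro M q _ _ hq hqM h4 h9
  by_cases h2 : q = 2
  · subst h2
    exact hTwo M hqM (h9 rfl)
  · exact ⟨1, Nat.one_pos, Fermat.Agent.H8.SS.ssPlaceGenCross M q (h4 h2) hq h2 hqM 1⟩

/-- The crossing points from the crossing data at `q = 2`. -/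
theorem ssCross_of_data9
    (hData : ∀ (M : ℕ) [NeZero M], ¬ 2 ∣ M → 9 ∣ M →
      Fermat.Agent.H31.SS.SSCrossData9Statement M 2) :
    SSCrossStatement :=
  ssCross_of_two fun M _ h2 h9 =>
    ⟨1, Nat.one_pos, Fermat.Agent.H59.SS.ssPlaceGenCross9_of_crossData M 2 h9 Nat.prime_two
      (by norm_num) h2 1 (hData M h2 h9)⟩

variable {p N : ℕ} [NeZero N] {S : Finset ℕ}

/-- **S34 from the crossing points.** -/
theorem s34_of_cross (h : SSCrossStatement)
    {𝒪 : Type} [CommRing 𝒪] [IsDomain 𝒪] [IsDiscreteValuationRing 𝒪]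
    [IsAdicComplete (IsLocalRing.maximalIdeal 𝒪) 𝒪]
    (hp : p.Prime) (hp𝒪 : (p : 𝒪) ∈ IsLocalRing.maximalIdeal 𝒪)
    (hpS : p ∈ S) (hNS : ∀ q : ℕ, q.Prime → q ∣ N → q ∈ S)
    {θ : CuspForm.heckeAlgebra N 2 (↑S : Set ℕ) →+* IsLocalRing.ResidueField 𝒪}
    {T : Type} [CommRing T] [IsLocalRing T] [IsNoetherianRing T]
    [IsAdicComplete (IsLocalRing.maximalIdeal T) T] [Algebra 𝒪 T] [IsLocalHom (algebraMap 𝒪 T)]
    [Module.Finite 𝒪 T] [Module.Free 𝒪 T]
    (H : CuspForm.HeckeGaloisRepDatum N (↑S : Set ℕ) 𝒪 θ T)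
    (q : ℕ) (hq : q.Prime) (hqp : q ≠ p) (hqN : q ∣ N) (hq2 : ¬ q ^ 2 ∣ N) :
    H.ρ.IsUnipotentOnInertiaAt q :=
  s34_of_ssPoints (ssPoints_of_cross h) hp hp𝒪 hpS hNS H q hq hqp hqN hq2

/-- **S34 from the crossing data at `q = 2`.** -/
theorem s34_of_data9
    (hData : ∀ (M : ℕ) [NeZero M], ¬ 2 ∣ M → 9 ∣ M →
      Fermat.Agent.H31.SS.SSCrossData9Statement M 2)
    {𝒪 : Type} [CommRing 𝒪] [IsDomain 𝒪] [IsDiscreteValuationRing 𝒪]
    [IsAdicComplete (IsLocalRing.maximalIdeal 𝒪) 𝒪]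
    (hp : p.Prime) (hp𝒪 : (p : 𝒪) ∈ IsLocalRing.maximalIdeal 𝒪)
    (hpS : p ∈ S) (hNS : ∀ q : ℕ, q.Prime → q ∣ N → q ∈ S)
    {θ : CuspForm.heckeAlgebra N 2 (↑S : Set ℕ) →+* IsLocalRing.ResidueField 𝒪}
    {T : Type} [CommRing T] [IsLocalRing T] [IsNoetherianRing T]
    [IsAdicComplete (IsLocalRing.maximalIdeal T) T] [Algebra 𝒪 T] [IsLocalHom (algebraMap 𝒪 T)]
    [Module.Finite 𝒪 T] [Module.Free 𝒪 T]
    (H : CuspForm.HeckeGaloisRepDatum N (↑S : Set ℕ) 𝒪 θ T)
    (q : ℕ) (hq : q.Prime) (hqp : q ≠ p) (hqN : q ∣ N) (hq2 : ¬ q ^ 2 ∣ N) :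
    H.ρ.IsUnipotentOnInertiaAt q :=
  s34_of_cross (ssCross_of_data9 hData) hp hp𝒪 hpS hNS H q hq hqp hqN hq2

end Fermat.Agent.H82.SS
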