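import Fermat.Agent.H82.SS.ModelAsm
import Fermat.Agent.H45.SS.KLSSAbs2

/-!
# P-SS : model-level assembly, arbitrary exponent (helper82)

`modelSecondDiffGen_of` : the model-level second difference statement for an ARBITRARY exponent
`m` (unit in `A₀`, `μ_m ⊆ K₁`), from the Gauss condition (`ModelGaussSDStatement`, row SSH-5),
the local principalisation (`ModelLocalPrincStatement`) and helper45's unconditional abstract key
lemma `Fermat.Agent.H45.klssAbs_general`.  This is the input of the descent row SSH-12.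
-/

set_option autoImplicit false
set_option linter.style.haveILetI false

noncomputable section

namespace Fermat.Agent.H82.SS

open Polynomial ModularCurve AlgebraicCurve
open Fermat.Agent.H22.KL

/-- **The model-level second difference statement, arbitrary exponent**: over a number field
`K₁` containing the `m`-th roots of unity, if the divisor of `f` is divisible by `m` and
supported on rational places and the leading coefficient of the second difference is an `m`-th
power in `K₁`, the second difference of `f` is an `m`-th power in `E₀`. -/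
def ModelSecondDiffGenStatement (M q : ℕ) [NeZero M] [NeZero q] : Prop :=
  ∀ (K₁ : Type) [Field K₁] [Algebra ℚ K₁] [FiniteDimensional ℚ K₁]
    (A₀ : Type) [CommRing A₀] [IsDomain A₀] [IsDiscreteValuationRing A₀]
    [Algebra A₀ K₁] [IsFractionRing A₀ K₁]
    [Algebra A₀ (ModelField K₁ (M * q))] [IsScalarTower A₀ K₁ (ModelField K₁ (M * q))],
    ¬ IsUnit ((q : ℕ) : A₀) →
    ∀ (σ₁ : K₁ ≃ₐ[ℚ] K₁), IsModelInertia K₁ A₀ σ₁ →
    ∀ (m : ℕ), 0 < m → IsUnit ((m : ℕ) : A₀) → (∃ ζ : K₁, IsPrimitiveRoot ζ m) →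
    ∀ f : ModelField K₁ (M * q), f ≠ 0 →
      (∀ P : Place K₁ (ModelField K₁ (M * q)), (m : ℤ) ∣ P.ord f) →
      (∀ P : Place K₁ (ModelField K₁ (M * q)), P.ord f ≠ 0 → IsRationalPlace P) →
      (∃ γ : K₁, γ ^ m =
        ((secondDiff (modelSigma K₁ (M * q) σ₁) f : ModelField K₁ (M * q)) :
          LaurentSeries K₁).leadingCoeff) →
      ∃ w : ModelField K₁ (M * q), w ^ m = secondDiff (modelSigma K₁ (M * q) σ₁) f

/-- **Model-level assembly, arbitrary exponent.** -/
theorem modelSecondDiffGen_of (M q : ℕ) [NeZero M] [NeZero q] (x₀ : LaurentSeries ℚ)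
    (hx₀ : x₀ ∈ modularFunctionFieldFull (M * q))
    (hTr : ModelTranscendentalStatement (M * q) x₀) (hFin : ModelFiniteStatement (M * q) x₀)
    (hSD : ModelGaussSDStatement M q x₀) (hLP : ModelLocalPrincStatement M q x₀)
    (hRoot : ModelRootStatement) (hConst : ModelConstStatement) :
    ModelSecondDiffGenStatement M q := by
  intro K₁ _ _ _ A₀ _ _ _ _ _ _ _ hq σ₁ hσ₁ m hm hmA hζm f hf hord hrat hγ
  classical
  -- the coordinate
  let x : ModelField K₁ (M * q) := ⟨coeffEmb K₁ x₀, coeffEmb_mem_laurentBaseChange K₁ hx₀⟩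
  have hx : (x : LaurentSeries K₁) = coeffEmb K₁ x₀ := rfl
  obtain ⟨ϖ, hϖ⟩ := IsDiscreteValuationRing.exists_irreducible A₀
  have hinjK : Function.Injective (algebraMap A₀ K₁) := IsFractionRing.injective A₀ K₁
  -- the instances on `Ω = K₁((q))` (canonical algebra structure over `A₀`)
  have hmapΩ : ∀ c : A₀, algebraMap A₀ (LaurentSeries K₁) c
      = algebraMap K₁ (LaurentSeries K₁) (algebraMap A₀ K₁ c) := by
    intro c
    simp [HahnSeries.algebraMap_apply', PowerSeries.algebraMap_apply]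
  haveI towK := IsScalarTower.of_algebraMap_eq (R := A₀) (S := K₁) (A := LaurentSeries K₁) hmapΩ
  haveI towE := IsScalarTower.of_algebraMap_eq (R := A₀) (S := ModelField K₁ (M * q))
    (A := LaurentSeries K₁) (fun c => by
      rw [hmapΩ, IsScalarTower.algebraMap_apply A₀ K₁ (ModelField K₁ (M * q))]
      rfl)
  haveI : CharZero K₁ := charZero_of_injective_algebraMap (algebraMap ℚ K₁).injective
  haveI : CharZero (ModelField K₁ (M * q)) :=
    charZero_of_injective_algebraMap (algebraMap K₁ (ModelField K₁ (M * q))).injective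
  have hinjE : Function.Injective (algebraMap A₀ (ModelField K₁ (M * q))) := by
    rw [IsScalarTower.algebraMap_eq A₀ K₁ (ModelField K₁ (M * q))]
    exact (algebraMap K₁ (ModelField K₁ (M * q))).injective.comp hinjK
  have htr : Transcendental A₀ x := hTr K₁ A₀ x hx
  have hfd := hFin K₁ A₀ x hx
  have hconst : ∀ z : LaurentSeries K₁, IsIntegral A₀ z →
      z ∈ (algebraMap A₀ (LaurentSeries K₁)).range := by
    intro z hz
    have hz1 : IsAlgebraic K₁ z := (hz.tower_top (A := K₁)).isAlgebraic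
    obtain ⟨c, rfl⟩ := hConst K₁ z hz1
    have hc : IsIntegral A₀ c :=
      (isIntegral_algebraMap_iff (algebraMap K₁ (LaurentSeries K₁)).injective).mp hz
    obtain ⟨d, rfl⟩ := IsIntegrallyClosed.isIntegral_iff.mp hc
    exact ⟨d, hmapΩ d⟩
  -- the primitive root of unity in `A₀`
  obtain ⟨ζ, hζ⟩ : ∃ ζ : A₀, IsPrimitiveRoot ζ m := by
    obtain ⟨ζ, hζ⟩ := hζm
    have hint : IsIntegral A₀ ζ :=
      ⟨X ^ m - 1, monic_X_pow_sub_C 1 hm.ne', by simp [hζ.pow_eq_one]⟩
    obtain ⟨z, hz⟩ := IsIntegrallyClosed.isIntegral_iff.mp hint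
    exact ⟨z, IsPrimitiveRoot.of_map_of_injective (f := algebraMap A₀ K₁) (hz ▸ hζ) hinjK⟩
  -- the Gauss condition and the local principalisation
  obtain ⟨huC, hu1⟩ := hSD K₁ A₀ hq ϖ hϖ x hx σ₁ hσ₁ f hf
  obtain ⟨hLf, hLi⟩ := hLP K₁ A₀ hq ϖ hϖ x hx σ₁ hσ₁ m hm hmA f hf hord hrat
  -- the `m`-th root in `Ω`
  obtain ⟨hu0, huo⟩ := ssAsm_order_secondDiff (M * q) σ₁ f hf
  have hroot : ∃ w : LaurentSeries K₁, w ^ m
      = algebraMap (ModelField K₁ (M * q)) (LaurentSeries K₁)
          (secondDiff (modelSigma K₁ (M * q) σ₁) f) := by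
    have hdvd : (m : ℤ) ∣ ((secondDiff (modelSigma K₁ (M * q) σ₁) f : ModelField K₁ (M * q)) :
        LaurentSeries K₁).order := by
      rw [huo]
      exact dvd_zero _
    exact hRoot K₁ m hm _ hu0 hdvd hγ
  obtain ⟨w₀, hw₀, -⟩ := Fermat.Agent.H45.klssAbs_general A₀ (ModelField K₁ (M * q))
    (LaurentSeries K₁) hinjE ϖ hϖ x htr hfd hconst m hm hmA ζ hζ _ huC hu1 hLf hLi hroot
  exact ⟨w₀, hw₀⟩

end Fermat.Agent.H82.SS
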