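import Mathlib
import Fermat.Agent.H22.ES.Interfaces
import Fermat.Prelude.Def_ModularCurve_HeckeOperator

/-!
# P-SS : interfaces (helper82, architect)

Semistable reduction of `J₀(M q)` at a prime `q ∤ M`, in the function-field language of P-ES.
`Prop`-valued statements plus the (formal) reduction of the top statement to the two halves.
See findings "P-SS ARCHITECTURE v1 (helper82)".

* `UnipotentTorsionStatement N` : the `J`-side target for `S34`:
  `(σ - 1)² = 0` on `J₀(N)[m]` for `σ` in an inertia group at `q ‖ N`, `q ∤ m`.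
* `GaussOne N A f` : `f = a / b` with `a, b ∈ F_N ∩ A((t))` having EQUAL NONZERO reductions.
* `IsAtkinLehnerAt M q W` : `W` is the Atkin-Lehner automorphism of `F_{M q}` (`W ∘ α = β`,
  `W ∘ β = α`); it exists by `Fermat.Agent.H41.exists_atkinLehnerBar`.
* `IsToricGen M q A h` : `h` is Gauss-one at the cusp `∞` and, up to a constant, at the cusp
  `0` (i.e. after `W`).  `IsToricClass M q A m y` : `y = [D]`, `m D = div h`, `h` a toric
  generator.
* `EasyHalfStatement M q` : `σ x - x` is a toric class (formal: Gauss normal form + `W`).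
* `HardHalfStatement M q` : inertia fixes every toric class (THE geometric content).
-/

set_option autoImplicit false
set_option linter.style.haveILetI false

noncomputable section

namespace Fermat.Agent.H82.SS

open ModularCurve AlgebraicCurve

/-- `ℚ̄` in the prelude's model. -/
abbrev SSQB : Type := AlgebraicClosure ℚ

/-- **(G34)**, the `J`-side target for `S34`: for `q ‖ N`, `q ∤ m`, every element `σ` of an
inertia group at `q` satisfies `(σ - 1)² = 0` on `J₀(N)(ℚ̄)[m]`. -/
def UnipotentTorsionStatement (N : ℕ) : Prop :=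
  ∀ (q : ℕ), q.Prime → q ∣ N → ¬ q ^ 2 ∣ N → ∀ (m : ℕ), 0 < m → ¬ q ∣ m →
    ∀ (A : ValuationSubring (AlgebraicClosure ℚ)), A.LiesOverPrime q →
      ∀ σ ∈ A.inertiaSubgroupIn ℚ, ∀ x : JZero N, m • x = 0 →
        σ • (σ • x - x) = σ • x - x

/-- `f = a / b` with `a b ∈ F_N ∩ A((t))` having equal nonzero reductions. -/
def GaussOne (N : ℕ) (A : ValuationSubring (AlgebraicClosure ℚ))
    (f : modularFunctionFieldBar N) : Prop :=
  ∃ (a b : LaurentSeries A)
    (ha : coeffMap A.subtype a ∈ modularFunctionFieldBar N)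
    (hb : coeffMap A.subtype b ∈ modularFunctionFieldBar N),
    coeffMap (IsLocalRing.residue A) a = coeffMap (IsLocalRing.residue A) b ∧
    coeffMap (IsLocalRing.residue A) a ≠ 0 ∧
    f * (⟨coeffMap A.subtype b, hb⟩ : modularFunctionFieldBar N)
      = (⟨coeffMap A.subtype a, ha⟩ : modularFunctionFieldBar N)

/-- `W` is the Atkin-Lehner automorphism at `q` of the function field of `X₀(M q)`. -/
def IsAtkinLehnerAt (M q : ℕ) [NeZero M] [NeZero q]
    (W : modularFunctionFieldBar (M * q) ≃ₐ[AlgebraicClosure ℚ]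
      modularFunctionFieldBar (M * q)) : Prop :=
  (∀ x, W (heckeAlphaBar (AlgebraicClosure ℚ) M q x) = heckeBetaBar (AlgebraicClosure ℚ) M q x) ∧
  (∀ x, W (heckeBetaBar (AlgebraicClosure ℚ) M q x) = heckeAlphaBar (AlgebraicClosure ℚ) M q x)

/-- A toric Kummer generator: Gauss-one at `∞`, and Gauss-one up to a constant at `0`. -/
def IsToricGen (M q : ℕ) [NeZero M] [NeZero q] (A : ValuationSubring (AlgebraicClosure ℚ))
    (h : modularFunctionFieldBar (M * q)) : Prop :=
  h ≠ 0 ∧ GaussOne (M * q) A h ∧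
    ∃ W : modularFunctionFieldBar (M * q) ≃ₐ[AlgebraicClosure ℚ]
        modularFunctionFieldBar (M * q),
      IsAtkinLehnerAt M q W ∧
      ∃ c : AlgebraicClosure ℚ, c ≠ 0 ∧
        GaussOne (M * q) A
          (algebraMap (AlgebraicClosure ℚ) (modularFunctionFieldBar (M * q)) c * W h)

/-- A toric class of exponent `m`: `y = [D]` with `m D = div h` for a toric generator `h`. -/
def IsToricClass (M q : ℕ) [NeZero M] [NeZero q] (A : ValuationSubring (AlgebraicClosure ℚ))
    (m : ℕ) (y : JZero (M * q)) : Prop :=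
  ∃ (D : Divisor.degZero (K := AlgebraicClosure ℚ) (F := modularFunctionFieldBar (M * q)))
    (h : modularFunctionFieldBar (M * q)),
    y = Pic0.mk D ∧ IsToricGen M q A h ∧
    ∀ P : Place (AlgebraicClosure ℚ) (modularFunctionFieldBar (M * q)),
      P.ord h = (m : ℤ) *
        (D : Divisor (AlgebraicClosure ℚ) (modularFunctionFieldBar (M * q))) P

/-- **EASY HALF**: for `σ` in inertia at `q` and `x ∈ J₀(M q)[m]`, `σ x - x` is a toric class. -/
def EasyHalfStatement (M q : ℕ) [NeZero M] [NeZero q] : Prop :=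
  ∀ (m : ℕ), 0 < m → ¬ q ∣ m →
    ∀ (A : ValuationSubring (AlgebraicClosure ℚ)), A.LiesOverPrime q →
      ∀ σ ∈ A.inertiaSubgroupIn ℚ, ∀ x : JZero (M * q), m • x = 0 →
        IsToricClass M q A m (σ • x - x)

/-- **HARD HALF**: inertia at `q` fixes every toric class of exponent prime to `q`. -/
def HardHalfStatement (M q : ℕ) [NeZero M] [NeZero q] : Prop :=
  ∀ (m : ℕ), 0 < m → ¬ q ∣ m →
    ∀ (A : ValuationSubring (AlgebraicClosure ℚ)), A.LiesOverPrime q →
      ∀ σ ∈ A.inertiaSubgroupIn ℚ, ∀ y : JZero (M * q), IsToricClass M q A m y →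
        σ • y = y

/-- The two halves at all pairs `(M, q)`, `q` prime, `q ∤ M`. -/
def TwoHalvesStatement : Prop :=
  ∀ (M q : ℕ) [NeZero M] [NeZero q], q.Prime → ¬ q ∣ M →
    EasyHalfStatement M q ∧ HardHalfStatement M q

/-- `(G34)` at the level `M q`. -/
theorem unipotentTorsion_mul_of_halves (M q : ℕ) [NeZero M] [NeZero q]
    (hE : EasyHalfStatement M q) (hH : HardHalfStatement M q)
    (m : ℕ) (hm : 0 < m) (hqm : ¬ q ∣ m)
    (A : ValuationSubring (AlgebraicClosure ℚ)) (hA : A.LiesOverPrime q)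
    (σ : AlgebraicClosure ℚ ≃ₐ[ℚ] AlgebraicClosure ℚ) (hσ : σ ∈ A.inertiaSubgroupIn ℚ)
    (x : JZero (M * q)) (hx : m • x = 0) :
    σ • (σ • x - x) = σ • x - x :=
  hH m hm hqm A hA σ hσ _ (hE m hm hqm A hA σ hσ x hx)

/-- **Formal top reduction**: the two halves imply `(G34)` at every level. -/
theorem unipotentTorsion_of_halves (h : TwoHalvesStatement) (N : ℕ) [NeZero N] :
    UnipotentTorsionStatement N := by
  intro q hq hqN hq2 m hm hqm A hA σ hσ x hx
  obtain ⟨M, rfl⟩ : ∃ M, N = M * q := ⟨N / q, (Nat.div_mul_cancel hqN).symm⟩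
  have hM0 : M ≠ 0 := by
    rintro rfl
    exact NeZero.ne (0 * q) (zero_mul q)
  haveI : NeZero M := ⟨hM0⟩
  haveI : NeZero q := ⟨hq.ne_zero⟩
  have hqM : ¬ q ∣ M := by
    rintro ⟨c, rfl⟩
    exact hq2 ⟨c, by ring⟩
  obtain ⟨hE, hH⟩ := h M q hq hqM
  exact unipotentTorsion_mul_of_halves M q hE hH m hm hqm A hA σ hσ x hx

end Fermat.Agent.H82.SS
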