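import Fermat.Agent.H82.SS.Tube
import Fermat.Agent.H82.SS.ModelAsm2

/-!
# P-SS : local principalisation from separation of places, model level (helper82)

* `ModelSeparationStatement M q x₀` : **the combined exact target of the geometric rows
  SSH-6 … SSH-9**: at every maximal ideal `𝔪 ∋ ϖ` of both charts `B(x)`, `B(x⁻¹)` of the model
  of level `M q` over `(K₁, A₀)`, every `K₁`-rational place `P` centred at `𝔪` is cut out by a
  function: there is `φ ∈ E₀` with `ord_P φ = 1` and `ord_R φ = 0` for every other place `R`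
  centred at `𝔪` (`IsSeparatedAt`).  No Galois action occurs in this statement.
* `ModelCentreStableStatement M q x₀` : inertia preserves the set of places centred at `𝔪`.
* `ModelFiniteSupportStatement N` : a nonzero function has finitely many zeros and poles.
* `modelLocalPrinc_of_separation` : these imply `ModelLocalPrincStatement M q x₀`
  (with `Fermat.Agent.H45.LocalHartogsStatement` and the Gauss condition SSH-5).
* `modelSecondDiffGen_of_separation` : … and hence the model-level second difference statement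
  for every exponent.
-/

set_option autoImplicit false
set_option linter.style.haveILetI false

noncomputable section

namespace Fermat.Agent.H82.SS

open Polynomial ModularCurve AlgebraicCurve
open Fermat.Agent.H22.KL

/-- **SEPARATION (combined target of SSH-6 … SSH-9).** -/
def ModelSeparationStatement (M q : ℕ) [NeZero M] [NeZero q] (x₀ : LaurentSeries ℚ) : Prop :=
  ∀ (K₁ : Type) [Field K₁] [Algebra ℚ K₁] [FiniteDimensional ℚ K₁]
    (A₀ : Type) [CommRing A₀] [IsDomain A₀] [IsDiscreteValuationRing A₀]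
    [Algebra A₀ K₁] [IsFractionRing A₀ K₁]
    [Algebra A₀ (ModelField K₁ (M * q))] [IsScalarTower A₀ K₁ (ModelField K₁ (M * q))],
    ¬ IsUnit ((q : ℕ) : A₀) →
    ∀ (ϖ : A₀), Irreducible ϖ →
    ∀ (x : ModelField K₁ (M * q)), (x : LaurentSeries K₁) = coeffEmb K₁ x₀ →
    ∀ y : ModelField K₁ (M * q), y = x ∨ y = x⁻¹ →
    ∀ 𝔪 : Ideal (chartClosure A₀ (ModelField K₁ (M * q)) y), 𝔪.IsMaximal →
      algebraMap A₀ (chartClosure A₀ (ModelField K₁ (M * q)) y) ϖ ∈ 𝔪 →
      IsSeparatedAt K₁ A₀ y 𝔪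

/-- **Inertia preserves centres**: if `P` is centred at `𝔪 ∋ ϖ` then so is `σ⁻¹ P`. -/
def ModelCentreStableStatement (M q : ℕ) [NeZero M] [NeZero q] (x₀ : LaurentSeries ℚ) : Prop :=
  ∀ (K₁ : Type) [Field K₁] [Algebra ℚ K₁] [FiniteDimensional ℚ K₁]
    (A₀ : Type) [CommRing A₀] [IsDomain A₀] [IsDiscreteValuationRing A₀]
    [Algebra A₀ K₁] [IsFractionRing A₀ K₁]
    [Algebra A₀ (ModelField K₁ (M * q))] [IsScalarTower A₀ K₁ (ModelField K₁ (M * q))],
    ¬ IsUnit ((q : ℕ) : A₀) →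
    ∀ (ϖ : A₀), Irreducible ϖ →
    ∀ (x : ModelField K₁ (M * q)), (x : LaurentSeries K₁) = coeffEmb K₁ x₀ →
    ∀ (σ₁ : K₁ ≃ₐ[ℚ] K₁), IsModelInertia K₁ A₀ σ₁ →
    ∀ y : ModelField K₁ (M * q), y = x ∨ y = x⁻¹ →
    ∀ 𝔪 : Ideal (chartClosure A₀ (ModelField K₁ (M * q)) y), 𝔪.IsMaximal →
      algebraMap A₀ (chartClosure A₀ (ModelField K₁ (M * q)) y) ϖ ∈ 𝔪 →
      ∀ P : Place K₁ (ModelField K₁ (M * q)), PlaceCentredAt A₀ y 𝔪 P →
        PlaceCentredAt A₀ y 𝔪
          ((arithmeticGalois (modularFunctionFieldFull (M * q)) σ₁)⁻¹ • P)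

/-- **Finiteness of zeros and poles** in the model field. -/
def ModelFiniteSupportStatement (N : ℕ) : Prop :=
  ∀ (K₁ : Type) [Field K₁] [Algebra ℚ K₁] (f : ModelField K₁ N), f ≠ 0 →
    {P : Place K₁ (ModelField K₁ N) | P.ord f ≠ 0}.Finite

/-- **Local principalisation from separation.** -/
theorem modelLocalPrinc_of_separation (M q : ℕ) [NeZero M] [NeZero q] (x₀ : LaurentSeries ℚ)
    (hH : Fermat.Agent.H45.LocalHartogsStatement)
    (hTr : ModelTranscendentalStatement (M * q) x₀) (hFin : ModelFiniteStatement (M * q) x₀)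
    (hSupp : ModelFiniteSupportStatement (M * q))
    (hSD : ModelGaussSDStatement M q x₀)
    (hSep : ModelSeparationStatement M q x₀) (hStab : ModelCentreStableStatement M q x₀) :
    ModelLocalPrincStatement M q x₀ := by
  intro K₁ _ _ _ A₀ _ _ _ _ _ _ _ hq ϖ hϖ x hx σ₁ hσ₁ r _ _ f hf hord hrat
  classical
  have hinjK : Function.Injective (algebraMap A₀ K₁) := IsFractionRing.injective A₀ K₁
  haveI : CharZero K₁ := charZero_of_injective_algebraMap (algebraMap ℚ K₁).injective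
  haveI : CharZero (ModelField K₁ (M * q)) :=
    charZero_of_injective_algebraMap (algebraMap K₁ (ModelField K₁ (M * q))).injective
  have hinjE : Function.Injective (algebraMap A₀ (ModelField K₁ (M * q))) := by
    rw [IsScalarTower.algebraMap_eq A₀ K₁ (ModelField K₁ (M * q))]
    exact (algebraMap K₁ (ModelField K₁ (M * q))).injective.comp hinjK
  have htr : Transcendental A₀ x := hTr K₁ A₀ x hx
  have htr' : Transcendental A₀ x⁻¹ := fun h => htr (IsAlgebraic.inv_iff.mp h)
  have hfd := hFin K₁ A₀ x hx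
  have hfd' : ∃ n : ℕ, Nonempty (Module.Basis (Fin n)
      (chartField A₀ (ModelField K₁ (M * q)) x⁻¹) (ModelField K₁ (M * q))) := by
    rw [Fermat.Agent.H89.klg_chartField_inv]
    exact hfd
  obtain ⟨-, -, hCinv⟩ := Fermat.Agent.H89.gaussClosureStatement A₀ (ModelField K₁ (M * q))
    hinjE ϖ hϖ x htr
  -- the Gauss condition in both charts
  have hgauss : ∀ y : ModelField K₁ (M * q), y = x ∨ y = x⁻¹ →
      ∀ φ : ModelField K₁ (M * q), φ ≠ 0 →
        GaussOneAt ϖ y (secondDiff (modelSigma K₁ (M * q) σ₁) φ) := by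
    intro y hy φ hφ
    have h := hSD K₁ A₀ hq ϖ hϖ x hx σ₁ hσ₁ φ hφ
    rcases hy with rfl | rfl
    · exact h
    · unfold GaussOneAt
      rw [hCinv]
      exact h
  obtain ⟨huC, -⟩ := hgauss x (Or.inl rfl) f hf
  obtain ⟨huC', -⟩ := hgauss x⁻¹ (Or.inr rfl) f hf
  have key : ∀ y : ModelField K₁ (M * q), y = x ∨ y = x⁻¹ → Transcendental A₀ y →
      ∀ 𝔪 : Ideal (chartClosure A₀ (ModelField K₁ (M * q)) y), 𝔪.IsMaximal →
      algebraMap A₀ (chartClosure A₀ (ModelField K₁ (M * q)) y) ϖ ∈ 𝔪 →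
      ∃ Hinv : ModelField K₁ (M * q), Hinv ∈ gaussClosure A₀ (ModelField K₁ (M * q)) ϖ y ∧
        PiDvdSet A₀ (ModelField K₁ (M * q)) ϖ (gaussClosure A₀ (ModelField K₁ (M * q)) ϖ y)
          (Hinv - 1) ∧
        ∀ V : ValuationSubring (ModelField K₁ (M * q)),
          Fermat.Agent.H45.CentredAt A₀ (ModelField K₁ (M * q)) y 𝔪 V →
          secondDiff (modelSigma K₁ (M * q) σ₁) f * Hinv ^ r ∈ V := by
    intro y hy hytr 𝔪 h𝔪 hϖ𝔪
    obtain ⟨Hinv, ⟨h1, h2⟩, h3⟩ := exists_hinv_of_separated hinjE ϖ hϖ y hytr 𝔪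
      (arithmeticGalois (modularFunctionFieldFull (M * q)) σ₁)
      (hSep K₁ A₀ hq ϖ hϖ x hx y hy 𝔪 h𝔪 hϖ𝔪) (hgauss y hy)
      (hStab K₁ A₀ hq ϖ hϖ x hx σ₁ hσ₁ y hy 𝔪 h𝔪 hϖ𝔪) r f hf hord hrat
      (hSupp K₁ f hf)
    exact ⟨Hinv, h1, h2, h3⟩
  exact ⟨Fermat.Agent.H45.localPrinc_of_places hH A₀ (ModelField K₁ (M * q)) hinjE ϖ hϖ x htr
      hfd r _ huC (key x (Or.inl rfl) htr),
    Fermat.Agent.H45.localPrinc_of_places hH A₀ (ModelField K₁ (M * q)) hinjE ϖ hϖ x⁻¹ htr'
      hfd' r _ huC' (key x⁻¹ (Or.inr rfl) htr')⟩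

/-- **The model-level second difference statement from separation** (every exponent). -/
theorem modelSecondDiffGen_of_separation (M q : ℕ) [NeZero M] [NeZero q]
    (x₀ : LaurentSeries ℚ) (hx₀ : x₀ ∈ modularFunctionFieldFull (M * q))
    (hH : Fermat.Agent.H45.LocalHartogsStatement)
    (hTr : ModelTranscendentalStatement (M * q) x₀) (hFin : ModelFiniteStatement (M * q) x₀)
    (hSupp : ModelFiniteSupportStatement (M * q))
    (hSD : ModelGaussSDStatement M q x₀)
    (hSep : ModelSeparationStatement M q x₀) (hStab : ModelCentreStableStatement M q x₀)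
    (hRoot : ModelRootStatement) (hConst : ModelConstStatement) :
    ModelSecondDiffGenStatement M q :=
  modelSecondDiffGen_of M q x₀ hx₀ hTr hFin hSD
    (modelLocalPrinc_of_separation M q x₀ hH hTr hFin hSupp hSD hSep hStab) hRoot hConst

end Fermat.Agent.H82.SS
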