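import Fermat.Agent.H82.SS.ModelAsm2
import Fermat.Agent.H45.SS.ModelLP
import Fermat.Agent.H71.SS.LevelCore
import Fermat.Agent.H14.S31KL
import Fermat.Agent.H22.ES.KLFinal
import Fermat.Agent.H58.KL.ModelTr
import Fermat.Agent.H57.SS.ModelFinite
import Fermat.Agent.H70.SS.DescentFinal
import Fermat.Agent.H62.SS.AtkinLehnerModel
import Fermat.Agent.H66.SS.ChartTransfer
import Fermat.Agent.H90.SS.SigmaCongr
import Fermat.Agent.H7.SS.GaussSDFinal

/-!
# P-SS : the FINAL ASSEMBLY of S34, modulo the open rows (helper82)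

`s34_of_points` : the frozen statement S34 (unipotent inertia at `q ∥ N`, `q ≠ p`) from

* `hH`  : local Hartogs, `Fermat.Agent.H45.LocalHartogsStatement` (row SSH-1);
* `hFZ` : finiteness of zeros and poles, `Fermat.Agent.H45.ModelFiniteZerosStatement N`
  (row SSH-15);
* `hP`  : the three geometric point rows SSH-7 (ordinary points), SSH-6/9 (crossing points),
  SSH-8 (cusps) at the auxiliary levels `M q` (`q` prime, `q ∤ M`, `4 ∣ M` if `q ≠ 2`,
  `9 ∣ M` if `q = 2`), in the form `Fermat.Agent.H45.SSPlaceGen…Statement M q jq 1`.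

Everything else is plugged in: the torsion package of S31 (P-ES), the level change (helper71),
the abstract key lemma KL-SS and the local-principalisation interface (helper45), the descent
(helper70), the Gauss condition (helper7), `σ ≡ id` modulo `ϖ` (helper90), the chart transfer
(helper66), the Atkin-Lehner automorphism (helper62, helper4), transcendence, finiteness, roots
and constants.
-/

set_option autoImplicit false
set_option linter.style.haveILetI false
set_option linter.unusedSectionVars false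
set_option linter.unusedVariables false

noncomputable section

namespace Fermat.Agent.H82.SS

open Polynomial ModularCurve AlgebraicCurve
open Fermat.Agent.H22.KL

/-- Transport of the second difference statement along an equality of levels. -/
theorem secondDifference_congr {N N' q : ℕ} (h : N = N')
    (hS : Fermat.Agent.H45.SecondDifferenceStatement N' q) :
    Fermat.Agent.H45.SecondDifferenceStatement N q := by
  subst h
  exact hS

/-- **Unipotent inertia on torsion at ONE prime `q`** from the second difference statement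
(per-prime form of `Fermat.Agent.H45.unipotentTorsion_of_secondDifference`). -/
theorem unipotentTorsionAt_of_secondDifference (N : ℕ) [NeZero N] (q : ℕ)
    (h : Fermat.Agent.H45.SecondDifferenceStatement N q) :
    ∀ (m : ℕ), 0 < m → ¬ q ∣ m →
      ∀ (B : ValuationSubring (AlgebraicClosure ℚ)), B.LiesOverPrime q →
        ∀ σ ∈ B.inertiaSubgroupIn ℚ, ∀ x : JZero N, m • x = 0 →
          σ • σ • x - 2 • (σ • x) + x = 0 := by
  intro m hm hqm B hB σ hσ x hx
  obtain ⟨D, rfl⟩ := Pic0.mk_surjective x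
  have hmD : ((m • D : Divisor.degZero (K := AlgebraicClosure ℚ)
      (F := modularFunctionFieldBar N)) : Divisor (AlgebraicClosure ℚ)
        (modularFunctionFieldBar N)) ∈
      Divisor.principal (K := AlgebraicClosure ℚ) (F := modularFunctionFieldBar N) := by
    have h1 : Pic0.mk (m • D) = 0 := hx
    have h2 := (QuotientAddGroup.eq_zero_iff _).mp h1
    exact h2
  obtain ⟨f, hf0, hfD⟩ := hmD
  have hfD' : ∀ P : Place (AlgebraicClosure ℚ) (modularFunctionFieldBar N),
      P.ord f = (m : ℤ) * (D : Divisor (AlgebraicClosure ℚ) (modularFunctionFieldBar N)) P := by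
    intro P
    rw [← hfD P]
    simp
  obtain ⟨w, hw⟩ := h B hB σ hσ m hm hqm f hf0
    (fun P => by rw [hfD' P]; exact dvd_mul_right _ _)
  rw [galois_smul_pic0_def, galois_smul_pic0_def]
  exact Fermat.Agent.H45.ssd_pic0_of_pow _ D m hm f w hf0 hfD' hw

/-- The three geometric point rows at the level `M q`. -/
structure SSPointInputs (M q : ℕ) [NeZero M] [NeZero q] : Prop where
  ord : Fermat.Agent.H45.SSPlaceGenOrdStatement M q jq 1
  cross : Fermat.Agent.H45.SSPlaceGenCrossStatement M q jq 1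
  cusp : Fermat.Agent.H45.SSPlaceGenCuspStatement M q jq 1

/-- **Local principalisation at level `M q`** from local Hartogs, finiteness of zeros and the
three point rows. -/
theorem modelLocalPrinc_of_points (M q : ℕ) [NeZero M] [NeZero q] (hq : q.Prime)
    (hqM : ¬ q ∣ M)
    (hH : Fermat.Agent.H45.LocalHartogsStatement)
    (hFZ : Fermat.Agent.H45.ModelFiniteZerosStatement (M * q))
    (hP : SSPointInputs M q) :
    ModelLocalPrincStatement M q jq := by
  haveI : NeZero (M * q) := ⟨Nat.mul_ne_zero (NeZero.ne M) (NeZero.ne q)⟩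
  have hMq : Nat.Coprime M q := ((Nat.Prime.coprime_iff_not_dvd hq).2 hqM).symm
  have hTr : ModelTranscendentalStatement (M * q) jq :=
    Fermat.Agent.H58.modelTranscendental_jq (M * q)
  have hFin : ModelFiniteStatement (M * q) jq := Fermat.Agent.H57.SS.modelFinite (M * q)
  have hW : ∀ (K₁ : Type) [Field K₁] [Algebra ℚ K₁] [FiniteDimensional ℚ K₁],
      ∃ W : ModelField K₁ (M * q) ≃ₐ[K₁] ModelField K₁ (M * q), IsAtkinLehnerModel K₁ M q W :=
    fun K₁ _ _ _ => Fermat.Agent.H62.SS.modelAtkinLehnerExists M q hMq K₁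
  have hPG : Fermat.Agent.H45.SSPlaceGenStatement M q jq 1 1 1 :=
    Fermat.Agent.H45.ssPlaceGen_of_parts M q jq 1 1 1 hTr hFin hW
      Fermat.Agent.H66.CT.chartTransfer hP.ord hP.cross hP.cusp
  exact Fermat.Agent.H45.modelLocalPrinc_of_placeGen M q jq hH hTr hFin
    (Fermat.Agent.H7.SS.modelGaussSD_prime M q hq hqM)
    (Fermat.Agent.H90.SS.modelSigmaCongr M q hq hqM) hFZ hPG

/-- **The auxiliary-level unipotency statement** (the target of P-SS) from the open rows. -/
theorem unipotentTorsionAux_of_points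
    (hH : Fermat.Agent.H45.LocalHartogsStatement)
    (hFZ : ∀ (N : ℕ) [NeZero N], Fermat.Agent.H45.ModelFiniteZerosStatement N)
    (hP : ∀ (M q : ℕ) [NeZero M] [NeZero q], q.Prime → ¬ q ∣ M →
      (q ≠ 2 → 4 ∣ M) → (q = 2 → 9 ∣ M) → SSPointInputs M q) :
    Fermat.Agent.H71.SS.UnipotentTorsionAuxStatement := by
  intro N _ q hq hqN hq2 h4 h9
  obtain ⟨M, hM0, hqM, hN⟩ := Fermat.Agent.H70.SS.exists_level_factor (NeZero.ne N) hqN hq2
  haveI : NeZero M := ⟨hM0⟩
  haveI : NeZero q := ⟨hq.ne_zero⟩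
  haveI : NeZero (M * q) := ⟨Nat.mul_ne_zero hM0 hq.ne_zero⟩
  have hcop4 : q ≠ 2 → 4 ∣ M := by
    intro h2
    have h := h4 h2
    rw [hN] at h
    have hc : Nat.Coprime 4 q := by
      have : Nat.Coprime 2 q := (Nat.coprime_primes Nat.prime_two hq).2 (Ne.symm h2)
      exact Nat.Coprime.pow_left 2 this
    exact hc.dvd_of_dvd_mul_right h
  have hcop9 : q = 2 → 9 ∣ M := by
    intro h2
    have h := h9 h2
    rw [hN] at h
    have hc : Nat.Coprime 9 q := by
      subst h2
      decide
    exact hc.dvd_of_dvd_mul_right h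
  have hSDq : Fermat.Agent.H45.SecondDifferenceStatement N q :=
    secondDifference_congr hN
      (Fermat.Agent.H70.SS.secondDifference_of_localPrinc_mul M q hq hqM
        (modelLocalPrinc_of_points M q hq hqM hH (hFZ (M * q)) (hP M q hq hqM hcop4 hcop9)))
  exact unipotentTorsionAt_of_secondDifference N q hSDq

variable {p N : ℕ} [NeZero N] {S : Finset ℕ}

/-- **S34 from the open rows of P-SS.** -/
theorem s34_of_points
    (hH : Fermat.Agent.H45.LocalHartogsStatement)
    (hFZ : ∀ (N : ℕ) [NeZero N], Fermat.Agent.H45.ModelFiniteZerosStatement N)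
    (hP : ∀ (M q : ℕ) [NeZero M] [NeZero q], q.Prime → ¬ q ∣ M →
      (q ≠ 2 → 4 ∣ M) → (q = 2 → 9 ∣ M) → SSPointInputs M q)
    {𝒪 : Type} [CommRing 𝒪] [IsDomain 𝒪] [IsDiscreteValuationRing 𝒪]
    [IsAdicComplete (IsLocalRing.maximalIdeal 𝒪) 𝒪]
    (hp : p.Prime) (hp𝒪 : (p : 𝒪) ∈ IsLocalRing.maximalIdeal 𝒪)
    (hpS : p ∈ S) (hNS : ∀ q : ℕ, q.Prime → q ∣ N → q ∈ S)
    {θ : CuspForm.heckeAlgebra N 2 (↑S : Set ℕ) →+* IsLocalRing.ResidueField 𝒪}
    {T : Type} [CommRing T] [IsLocalRing T] [IsNoetherianRing T]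
    [IsAdicComplete (IsLocalRing.maximalIdeal T) T] [Algebra 𝒪 T] [IsLocalHom (algebraMap 𝒪 T)]
    [Module.Finite 𝒪 T] [Module.Free 𝒪 T]
    (H : CuspForm.HeckeGaloisRepDatum N (↑S : Set ℕ) 𝒪 θ T)
    (q : ℕ) (hq : q.Prime) (hqp : q ≠ p) (hqN : q ∣ N) (hq2 : ¬ q ^ 2 ∣ N) :
    H.ρ.IsUnipotentOnInertiaAt q :=
  Fermat.Agent.H71.SS.s34_of_aux (unipotentTorsionAux_of_points hH hFZ hP)
    Fermat.Agent.H72.frobPow
    (Fermat.Agent.H14.s31w_unramified N Fermat.Agent.H22.KL.keyLemmaAll)
    (Fermat.Agent.H49.heckeGaloisTorsionStatement N)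
    (Fermat.Agent.H36.eichlerShimuraRel_of_KL N
      (fun ℓ hℓ hℓN => Fermat.Agent.H22.KL.keyLemmaAll N ℓ hℓ hℓN))
    (Fermat.Agent.H14.s31w_level N) (Fermat.Agent.H14.s31w_kummerEmbedding N)
    (Fermat.Agent.H79.cohFaithful N S) Fermat.Agent.H48.Lat.latticeBound
    hp hp𝒪 hpS hNS H q hq hqp hqN hq2

end Fermat.Agent.H82.SS
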