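import Fermat.Agent.H45.SS.ChainRoots
import Fermat.Agent.H71.SS.LevelCore
import Fermat.Agent.H14.S31KL
import Fermat.Agent.H22.ES.KLFinal

/-!
# P-SS : the FINAL ASSEMBLY of S34 from the three point statements (helper82)

* `SSPointsStatement` : **the only open input of S34**: at every auxiliary pair `(M, q)`
  (`q` prime, `q ∤ M`, `4 ∣ M` if `q ≠ 2`, `9 ∣ M` if `q = 2`) the three geometric point
  statements of helper45's interface hold, with roots of unity of orders `R₁ R₂ R₃ > 0` chosen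
  by the providers.
* `unipotentTorsionAux_of_ssPoints` : the auxiliary-level unipotency statement
  `Fermat.Agent.H71.SS.UnipotentTorsionAuxStatement` (also the input (u) of S35).
* `s34_of_ssPoints` : the frozen statement S34.

Everything else is plugged in (P-ES torsion package and key lemma, level change, descent, local
Hartogs, finiteness of zeros, Gauss condition, `σ ≡ id`, chart transfer, Atkin-Lehner).
-/

set_option autoImplicit false
set_option linter.unusedSectionVars false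
set_option linter.unusedVariables false

noncomputable section

namespace Fermat.Agent.H82.SS

open ModularCurve

/-- **The only open input of S34**: the three point statements at the auxiliary pairs. -/
def SSPointsStatement : Prop :=
  ∀ (M q : ℕ) [NeZero M] [NeZero q], q.Prime → ¬ q ∣ M →
    (q ≠ 2 → 4 ∣ M) → (q = 2 → 9 ∣ M) →
    ∃ R₁ R₂ R₃ : ℕ, 0 < R₁ ∧ 0 < R₂ ∧ 0 < R₃ ∧
      Fermat.Agent.H45.SSPlaceGenOrdStatement M q jq R₁ ∧
      Fermat.Agent.H45.SSPlaceGenCrossStatement M q jq R₂ ∧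
      Fermat.Agent.H45.SSPlaceGenCuspStatement M q jq R₃

/-- The point statements from the three rows separately. -/
theorem ssPoints_of_rows
    (hOrd : ∀ (M q : ℕ) [NeZero M] [NeZero q], q.Prime → ¬ q ∣ M →
      (q ≠ 2 → 4 ∣ M) → (q = 2 → 9 ∣ M) →
      ∃ R : ℕ, 0 < R ∧ Fermat.Agent.H45.SSPlaceGenOrdStatement M q jq R)
    (hCross : ∀ (M q : ℕ) [NeZero M] [NeZero q], q.Prime → ¬ q ∣ M →
      (q ≠ 2 → 4 ∣ M) → (q = 2 → 9 ∣ M) →
      ∃ R : ℕ, 0 < R ∧ Fermat.Agent.H45.SSPlaceGenCrossStatement M q jq R)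
    (hCusp : ∀ (M q : ℕ) [NeZero M] [NeZero q], q.Prime → ¬ q ∣ M →
      (q ≠ 2 → 4 ∣ M) → (q = 2 → 9 ∣ M) →
      ∃ R : ℕ, 0 < R ∧ Fermat.Agent.H45.SSPlaceGenCuspStatement M q jq R) :
    SSPointsStatement := by
  intro M q _ _ hq hqM h4 h9
  obtain ⟨R₁, h1, hO⟩ := hOrd M q hq hqM h4 h9
  obtain ⟨R₂, h2, hX⟩ := hCross M q hq hqM h4 h9
  obtain ⟨R₃, h3, hC⟩ := hCusp M q hq hqM h4 h9
  exact ⟨R₁, R₂, R₃, h1, h2, h3, hO, hX, hC⟩

/-- The auxiliary-level unipotency statement from the point statements. -/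
theorem unipotentTorsionAux_of_ssPoints (h : SSPointsStatement) :
    Fermat.Agent.H71.SS.UnipotentTorsionAuxStatement :=
  Fermat.Agent.H45.unipotentTorsionAux_of_pointsRoots h

variable {p N : ℕ} [NeZero N] {S : Finset ℕ}

/-- **S34 from the three point statements.** -/
theorem s34_of_ssPoints (h : SSPointsStatement)
    {𝒪 : Type} [CommRing 𝒪] [IsDomain 𝒪] [IsDiscreteValuationRing 𝒪]
    [IsAdicComplete (IsLocalRing.maximalIdeal 𝒪) 𝒪]
    (hp : p.Prime) (hp𝒪 : (p : 𝒪) ∈ IsLocalRing.maximalIdeal 𝒪)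
    (hpS : p ∈ S) (hNS : ∀ q : ℕ, q.Prime → q ∣ N → q ∈ S)
    {θ : CuspForm.heckeAlgebra N 2 (↑S : Set ℕ) →+* IsLocalRing.ResidueField 𝒪}
    {T : Type} [CommRing T] [IsLocalRing T] [IsNoetherianRing T]
    [IsAdicComplete (IsLocalRing.maximalIdeal T) T] [Algebra 𝒪 T] [IsLocalHom (algebraMap 𝒪 T)]
    [Module.Finite 𝒪 T] [Module.Free 𝒪 T]
    (H : CuspForm.HeckeGaloisRepDatum N (↑S : Set ℕ) 𝒪 θ T)
    (q : ℕ) (hq : q.Prime) (hqp : q ≠ p) (hqN : q ∣ N) (hq2 : ¬ q ^ 2 ∣ N) :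
    H.ρ.IsUnipotentOnInertiaAt q :=
  Fermat.Agent.H71.SS.s34_of_aux (unipotentTorsionAux_of_ssPoints h)
    Fermat.Agent.H72.frobPow
    (Fermat.Agent.H14.s31w_unramified N Fermat.Agent.H22.KL.keyLemmaAll)
    (Fermat.Agent.H49.heckeGaloisTorsionStatement N)
    (Fermat.Agent.H36.eichlerShimuraRel_of_KL N
      (fun ℓ hℓ hℓN => Fermat.Agent.H22.KL.keyLemmaAll N ℓ hℓ hℓN))
    (Fermat.Agent.H14.s31w_level N) (Fermat.Agent.H14.s31w_kummerEmbedding N)
    (Fermat.Agent.H79.cohFaithful N S) Fermat.Agent.H48.Lat.latticeBound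
    hp hp𝒪 hpS hNS H q hq hqp hqN hq2

end Fermat.Agent.H82.SS
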