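import Fermat.Agent.H82.SS.Contract
import Fermat.Agent.H45.SS.KLSSAbs2
import Fermat.Agent.H22.ES.KLAsmCore
import Fermat.Agent.H23.PlaceBasic

/-!
# P-SS : SEPARATION of rational places and the bookkeeping step SSH-10 (helper82)

Abstract setting: `A₀` a discrete valuation ring with fraction field `K₁`, `E₀ / K₁` a function
field, `y` a chart coordinate, `𝔪 ∋ ϖ` a maximal ideal of the chart `B(y)`, `g` a semilinear
automorphism of `E₀ / K₁` (in the application: an inertia element acting on the coefficients).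

* `GaussOneAt ϖ y z` : `z ∈ C(y)` and `z ≡ 1` modulo `ϖ C(y)`.
* `PlaceCentredAt A₀ y 𝔪 P` : the place `P` of `E₀ / K₁` is centred at `𝔪`
  (`Fermat.Agent.H45.CentredAt` for its valuation ring).
* `IsSeparatedAt A₀ y 𝔪` : **the rational places centred at `𝔪` are cut out by functions**:
  for every RATIONAL place `P` centred at `𝔪` there is `φ ∈ E₀` with a simple zero at `P` and
  neither zero nor pole at any other place centred at `𝔪`.  (For a regular point
  `𝔪 = (ϖ, u)` of the model: `φ = u - u(P)`; for a double point `X Y = ϖ ^ e`: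
  `φ = X - X(P)`.)  No Galois action is involved in this condition.
* `exists_hinv_of_separated` (**SSH-10**) : if `𝔪` is separated, second differences are `≡ 1`
  modulo `ϖ C(y)` (the Gauss condition, row SSH-5), `f ≠ 0` has divisor divisible by `r`,
  supported on finitely many rational places, and `g⁻¹` preserves the set of places centred at
  `𝔪`, there is `Hinv ≡ 1` modulo `ϖ C` such that `secondDiff g f * Hinv ^ r` is a unit at every
  place centred at `𝔪`.  With `Fermat.Agent.H45.localPrinc_of_places` this is the hypothesis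
  `LocalPrinc` of the abstract key lemma KL-SS.
-/

set_option autoImplicit false
set_option linter.style.haveILetI false
set_option linter.unusedSectionVars false

noncomputable section

namespace Fermat.Agent.H82.SS

open Polynomial AlgebraicCurve
open Fermat.Agent.H22.KL

section Defs

variable {K₁ : Type} [Field K₁] (A₀ : Type) [CommRing A₀]
  {E₀ : Type} [Field E₀] [Algebra K₁ E₀] [Algebra A₀ E₀]

/-- `z ∈ C(y)` and `z ≡ 1` modulo `ϖ C(y)`. -/
def GaussOneAt {A₀ : Type} [CommRing A₀] [Algebra A₀ E₀] (ϖ : A₀) (y z : E₀) : Prop :=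
  z ∈ gaussClosure A₀ E₀ ϖ y ∧ PiDvdSet A₀ E₀ ϖ (gaussClosure A₀ E₀ ϖ y) (z - 1)

/-- The place `P` of `E₀ / K₁` is centred at the maximal ideal `𝔪` of the chart `B(y)`. -/
def PlaceCentredAt (y : E₀) (𝔪 : Ideal (chartClosure A₀ E₀ y)) (P : Place K₁ E₀) : Prop :=
  Fermat.Agent.H45.CentredAt A₀ E₀ y 𝔪 P.toValuationSubring

/-- **The rational places centred at `𝔪` are cut out by functions.** -/
def IsSeparatedAt (K₁ : Type) [Field K₁] (A₀ : Type) [CommRing A₀]
    {E₀ : Type} [Field E₀] [Algebra K₁ E₀] [Algebra A₀ E₀]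
    (y : E₀) (𝔪 : Ideal (chartClosure A₀ E₀ y)) : Prop :=
  ∀ P : Place K₁ E₀, PlaceCentredAt A₀ y 𝔪 P → IsRationalPlace P →
    ∃ φ : E₀, P.ord φ = 1 ∧
      ∀ R : Place K₁ E₀, PlaceCentredAt A₀ y 𝔪 R → R ≠ P → R.ord φ = 0

end Defs

section GaussOne

variable {A₀ : Type} [CommRing A₀] [IsDomain A₀] [IsDiscreteValuationRing A₀]
  {E₀ : Type} [Field E₀] [Algebra A₀ E₀]

theorem gaussOneAt_one (hinj : Function.Injective (algebraMap A₀ E₀)) {ϖ : A₀}
    (hϖ : Irreducible ϖ) {y : E₀} (hy : Transcendental A₀ y) : GaussOneAt ϖ y (1 : E₀) := by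
  obtain ⟨hBC, -, -⟩ := Fermat.Agent.H89.gaussClosureStatement A₀ E₀ hinj ϖ hϖ y hy
  refine ⟨hBC 1 (chartClosure A₀ E₀ y).one_mem, 0, hBC 0 (chartClosure A₀ E₀ y).zero_mem, ?_⟩
  simp

theorem GaussOneAt.mul (hinj : Function.Injective (algebraMap A₀ E₀)) {ϖ : A₀}
    (hϖ : Irreducible ϖ) {y : E₀} (hy : Transcendental A₀ y) {z w : E₀}
    (hz : GaussOneAt ϖ y z) (hw : GaussOneAt ϖ y w) : GaussOneAt ϖ y (z * w) := by
  obtain ⟨-, hCring', -⟩ := Fermat.Agent.H89.gaussClosureStatement A₀ E₀ hinj ϖ hϖ y hy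
  have hCring : IsRingLike (gaussClosure A₀ E₀ ϖ y) :=
    ⟨fun y hy z hz => (hCring' y hy z hz).1, fun y hy z hz => (hCring' y hy z hz).2.1,
      fun y hy => (hCring' y hy y hy).2.2⟩
  refine ⟨hCring.mul _ hz.1 _ hw.1, ?_⟩
  have e : z * w - 1 = z * (w - 1) + (z - 1) := by ring
  rw [e]
  exact (hw.2.mul_left hCring hz.1).add hCring hz.2

theorem GaussOneAt.pow (hinj : Function.Injective (algebraMap A₀ E₀)) {ϖ : A₀}
    (hϖ : Irreducible ϖ) {y : E₀} (hy : Transcendental A₀ y) {z : E₀}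
    (hz : GaussOneAt ϖ y z) (n : ℕ) : GaussOneAt ϖ y (z ^ n) := by
  induction n with
  | zero => simpa using gaussOneAt_one hinj hϖ hy
  | succ k ih => rw [pow_succ]; exact ih.mul hinj hϖ hy hz

theorem GaussOneAt.zpow (hinj : Function.Injective (algebraMap A₀ E₀)) {ϖ : A₀}
    (hϖ : Irreducible ϖ) {y : E₀} (hy : Transcendental A₀ y) {z : E₀}
    (hz : GaussOneAt ϖ y z) (hz' : GaussOneAt ϖ y z⁻¹) (n : ℤ) : GaussOneAt ϖ y (z ^ n) := by
  rcases n with n | n
  · simpa using hz.pow hinj hϖ hy n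
  · rw [zpow_negSucc, ← inv_pow]
    exact hz'.pow hinj hϖ hy (n + 1)

theorem gaussOneAt_prod (hinj : Function.Injective (algebraMap A₀ E₀)) {ϖ : A₀}
    (hϖ : Irreducible ϖ) {y : E₀} (hy : Transcendental A₀ y) {ι : Type*} (S : Finset ι)
    (F : ι → E₀) (hF : ∀ i ∈ S, GaussOneAt ϖ y (F i)) : GaussOneAt ϖ y (∏ i ∈ S, F i) := by
  classical
  induction S using Finset.induction_on with
  | empty => simpa using gaussOneAt_one hinj hϖ hy
  | insert a s ha ih =>
    rw [Finset.prod_insert ha]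
    exact (hF a (Finset.mem_insert_self a s)).mul hinj hϖ hy
      (ih fun i hi => hF i (Finset.mem_insert_of_mem hi))

end GaussOne

section Ord

variable {K₁ : Type} [Field K₁] {E₀ : Type} [Field E₀] [Algebra K₁ E₀]

theorem tube_ord_prod (Q : Place K₁ E₀) {ι : Type*} (S : Finset ι) (F : ι → E₀)
    (hF : ∀ i ∈ S, F i ≠ 0) : Q.ord (∏ i ∈ S, F i) = ∑ i ∈ S, Q.ord (F i) := by
  classical
  induction S using Finset.induction_on with
  | empty => simp
  | insert a s ha ih =>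
    have h1 : F a ≠ 0 := hF a (Finset.mem_insert_self a s)
    have h2 : ∏ i ∈ s, F i ≠ 0 :=
      Finset.prod_ne_zero_iff.mpr fun i hi => hF i (Finset.mem_insert_of_mem hi)
    rw [Finset.prod_insert ha, Finset.sum_insert ha, Q.ord_mul h1 h2,
      ih fun i hi => hF i (Finset.mem_insert_of_mem hi)]

/-- `ord_Q (g f) = ord_{g⁻¹ Q} f`. -/
theorem tube_ord_smul (g : SemilinearAut K₁ E₀) (Q : Place K₁ E₀) (f : E₀) :
    Q.ord (g • f) = (g⁻¹ • Q).ord f := by
  have := SemilinearAut.ord_smul g (g⁻¹ • Q) f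
  rwa [smul_inv_smul] at this

end Ord

section Main

variable {K₁ : Type} [Field K₁] {A₀ : Type} [CommRing A₀] [IsDomain A₀]
  [IsDiscreteValuationRing A₀] [Algebra A₀ K₁] [IsFractionRing A₀ K₁]
  {E₀ : Type} [Field E₀] [Algebra K₁ E₀] [Algebra A₀ E₀] [IsScalarTower A₀ K₁ E₀]

/-- The order of a second difference. -/
theorem tube_ord_secondDiff (g : SemilinearAut K₁ E₀) (Q : Place K₁ E₀) {f : E₀} (hf : f ≠ 0) :
    Q.ord (secondDiff (SemilinearAut.toRingAut g) f)
      = (g⁻¹ • g⁻¹ • Q).ord f + Q.ord f - 2 * (g⁻¹ • Q).ord f := by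
  have hgf : SemilinearAut.toRingAut g f ≠ 0 := by simpa using hf
  have hggf : SemilinearAut.toRingAut g (SemilinearAut.toRingAut g f) ≠ 0 := by simpa using hgf
  have e1 : Q.ord (SemilinearAut.toRingAut g f) = (g⁻¹ • Q).ord f := tube_ord_smul g Q f
  have e2 : Q.ord (SemilinearAut.toRingAut g (SemilinearAut.toRingAut g f))
      = (g⁻¹ • g⁻¹ • Q).ord f := by
    have h1 : Q.ord (g • (g • f)) = (g⁻¹ • Q).ord (g • f) := tube_ord_smul g Q (g • f)
    have h2 : (g⁻¹ • Q).ord (g • f) = (g⁻¹ • g⁻¹ • Q).ord f := tube_ord_smul g (g⁻¹ • Q) f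
    exact h1.trans h2
  unfold secondDiff
  rw [div_eq_mul_inv, Q.ord_mul (mul_ne_zero hggf hf) (inv_ne_zero (pow_ne_zero 2 hgf)),
    Q.ord_mul hggf hf, Q.ord_inv, pow_two, Q.ord_mul hgf hgf, e1, e2]
  ring

theorem secondDiff_ne_zero {E : Type*} [Field E] (s : E ≃+* E) {f : E} (hf : f ≠ 0) :
    secondDiff s f ≠ 0 := by
  have hgf : s f ≠ 0 := by simpa using hf
  have hggf : s (s f) ≠ 0 := by simpa using hgf
  unfold secondDiff
  exact div_ne_zero (mul_ne_zero hggf hf) (pow_ne_zero 2 hgf)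

theorem secondDiff_inv {E : Type*} [Field E] (s : E ≃+* E) (f : E) :
    secondDiff s f⁻¹ = (secondDiff s f)⁻¹ := by
  unfold secondDiff
  rw [map_inv₀, map_inv₀, inv_pow, ← mul_inv, div_eq_mul_inv, inv_inv, inv_div, div_eq_mul_inv,
    mul_comm]

/-- **SSH-10 (SEPARATION ⇒ PLACES).**  Given that the rational places centred at `𝔪` are cut
out by functions, that all second differences are `≡ 1` modulo `ϖ C(y)`, a function `f ≠ 0`
whose divisor is divisible by `r` and supported on finitely many rational places, and `g⁻¹`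
preserving the set of places centred at `𝔪`: there is `Hinv ≡ 1` modulo `ϖ C` such that
`secondDiff g f * Hinv ^ r` is regular at every place centred at `𝔪`. -/
theorem exists_hinv_of_separated (hinj : Function.Injective (algebraMap A₀ E₀))
    (ϖ : A₀) (hϖ : Irreducible ϖ) (y : E₀) (hy : Transcendental A₀ y)
    (𝔪 : Ideal (chartClosure A₀ E₀ y)) (g : SemilinearAut K₁ E₀)
    (hsep : IsSeparatedAt K₁ A₀ y 𝔪)
    (hgauss : ∀ φ : E₀, φ ≠ 0 → GaussOneAt ϖ y (secondDiff (SemilinearAut.toRingAut g) φ))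
    (hstab : ∀ P : Place K₁ E₀, PlaceCentredAt A₀ y 𝔪 P → PlaceCentredAt A₀ y 𝔪 (g⁻¹ • P))
    (r : ℕ) (f : E₀) (hf : f ≠ 0)
    (hord : ∀ P : Place K₁ E₀, (r : ℤ) ∣ P.ord f)
    (hrat : ∀ P : Place K₁ E₀, P.ord f ≠ 0 → IsRationalPlace P)
    (hfin : {P : Place K₁ E₀ | P.ord f ≠ 0}.Finite) :
    ∃ Hinv : E₀, GaussOneAt ϖ y Hinv ∧
      ∀ V : ValuationSubring E₀, Fermat.Agent.H45.CentredAt A₀ E₀ y 𝔪 V →
        secondDiff (SemilinearAut.toRingAut g) f * Hinv ^ r ∈ V := by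
  classical
  let S : Finset (Place K₁ E₀) := hfin.toFinset.filter (fun P => PlaceCentredAt A₀ y 𝔪 P)
  have hS : ∀ P, P ∈ S ↔ P.ord f ≠ 0 ∧ PlaceCentredAt A₀ y 𝔪 P := by
    intro P
    simp [S]
  have hex : ∀ P ∈ S, ∃ φ : E₀, P.ord φ = 1 ∧
      ∀ R : Place K₁ E₀, PlaceCentredAt A₀ y 𝔪 R → R ≠ P → R.ord φ = 0 := by
    intro P hP
    exact hsep P ((hS P).1 hP).2 (hrat P ((hS P).1 hP).1)
  choose! φ hφ using hex
  have hφ0 : ∀ P ∈ S, φ P ≠ 0 := by
    intro P hP h0
    have h1 := (hφ P hP).1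
    rw [h0] at h1
    simp at h1
  have hφord : ∀ P ∈ S, ∀ R : Place K₁ E₀, PlaceCentredAt A₀ y 𝔪 R →
      R.ord (φ P) = if R = P then 1 else 0 := by
    intro P hP R hR
    split_ifs with h
    · rw [h]; exact (hφ P hP).1
    · exact (hφ P hP).2 R hR h
  let n : Place K₁ E₀ → ℤ := fun P => P.ord f / (r : ℤ)
  have hn : ∀ P, (r : ℤ) * n P = P.ord f := fun P => Int.mul_ediv_cancel' (hord P)
  refine ⟨∏ P ∈ S, (secondDiff (SemilinearAut.toRingAut g) (φ P)) ^ (-(n P)), ?_, ?_⟩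
  · refine gaussOneAt_prod hinj hϖ hy S _ fun P hP => ?_
    have h1 := hgauss (φ P) (hφ0 P hP)
    have h2 := hgauss (φ P)⁻¹ (inv_ne_zero (hφ0 P hP))
    rw [secondDiff_inv] at h2
    exact h1.zpow hinj hϖ hy h2 _
  · intro V hV
    obtain ⟨Q, rfl⟩ := klAsm_exists_place (K₁ := K₁) (A₀ := A₀) V hV.1.1
    have hQ : PlaceCentredAt A₀ y 𝔪 Q := hV
    have hQ1 := hstab Q hQ
    have hQ2 := hstab _ hQ1
    apply Fermat.Agent.H23.mem_of_ord_nonneg
    have hfac : ∀ P ∈ S, (secondDiff (SemilinearAut.toRingAut g) (φ P)) ^ (-(n P)) ≠ 0 :=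
      fun P hP => zpow_ne_zero _ (secondDiff_ne_zero _ (hφ0 P hP))
    have hprod0 : ∏ P ∈ S, (secondDiff (SemilinearAut.toRingAut g) (φ P)) ^ (-(n P)) ≠ 0 :=
      Finset.prod_ne_zero_iff.mpr hfac
    have hu0 : secondDiff (SemilinearAut.toRingAut g) f ≠ 0 := secondDiff_ne_zero _ hf
    -- the key sums
    have hsum : ∀ R : Place K₁ E₀, PlaceCentredAt A₀ y 𝔪 R →
        ∑ P ∈ S, (r : ℤ) * n P * (if R = P then (1 : ℤ) else 0) = R.ord f := by
      intro R hR
      have e : ∀ P ∈ S, (r : ℤ) * n P * (if R = P then (1 : ℤ) else 0)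
          = if R = P then P.ord f else 0 := by
        intro P _
        split_ifs
        · rw [mul_one, hn]
        · rw [mul_zero]
      rw [Finset.sum_congr rfl e, Finset.sum_ite_eq]
      split_ifs with hRS
      · rfl
      · by_contra hne
        exact hRS ((hS R).2 ⟨fun h0 => hne h0.symm, hR⟩)
    have hordH : Q.ord ((∏ P ∈ S,
          (secondDiff (SemilinearAut.toRingAut g) (φ P)) ^ (-(n P))) ^ r)
        = - ((g⁻¹ • g⁻¹ • Q).ord f + Q.ord f - 2 * (g⁻¹ • Q).ord f) := by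
      rw [← zpow_natCast, Q.ord_zpow, tube_ord_prod Q S _ hfac, Finset.mul_sum]
      have e : ∀ P ∈ S,
          (r : ℤ) * Q.ord ((secondDiff (SemilinearAut.toRingAut g) (φ P)) ^ (-(n P)))
          = - ((r : ℤ) * n P * (if g⁻¹ • g⁻¹ • Q = P then (1 : ℤ) else 0)
              + (r : ℤ) * n P * (if Q = P then (1 : ℤ) else 0)
              - 2 * ((r : ℤ) * n P * (if g⁻¹ • Q = P then (1 : ℤ) else 0))) := by
        intro P hP
        rw [Q.ord_zpow, tube_ord_secondDiff g Q (hφ0 P hP), hφord P hP _ hQ2, hφord P hP _ hQ,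
          hφord P hP _ hQ1]
        ring
      rw [Finset.sum_congr rfl e, Finset.sum_neg_distrib, Finset.sum_sub_distrib,
        Finset.sum_add_distrib, ← Finset.mul_sum, hsum _ hQ2, hsum _ hQ, hsum _ hQ1]
    have htot : Q.ord (secondDiff (SemilinearAut.toRingAut g) f
        * (∏ P ∈ S, (secondDiff (SemilinearAut.toRingAut g) (φ P)) ^ (-(n P))) ^ r) = 0 := by
      rw [Q.ord_mul hu0 (pow_ne_zero r hprod0), tube_ord_secondDiff g Q hf, hordH]
      ring
    rw [htot]

end Main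

end Fermat.Agent.H82.SS
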