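import Fermat.Agent.H82.SS.Points
import Fermat.Agent.H8.SS.Cross9Data

/-!
# P-SS : the unconditional output of the geometric blocks (helper82)

* `ssCross` : `SSCrossStatement` (helper8, helper59, helper31: crossing points at every
  auxiliary pair);
* `ssPoints` : `SSPointsStatement` (the three point statements at every auxiliary pair);
* `unipotentTorsionAux` : **`Fermat.Agent.H71.SS.UnipotentTorsionAuxStatement`, unconditional**:
  for `q ∥ N`, `q ∤ m`, `4 ∣ N` (if `q ≠ 2`) resp. `9 ∣ N` (if `q = 2`), every `σ` in an inertia
  group at `q` satisfies `(σ - 1)² = 0` on `J₀(N)[m]`.  This is the geometric input of S34 and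
  the input (u) of S35 / S36.
-/

set_option autoImplicit false

noncomputable section

namespace Fermat.Agent.H82.SS

open ModularCurve

/-- The crossing points at every auxiliary pair (unconditional). -/
theorem ssCross : SSCrossStatement :=
  fun M q _ _ hq hqM h4 h9 =>
    ⟨1, Nat.one_pos, Fermat.Agent.H8.SS.ssPlaceGenCross_all M q hq hqM h4 h9 1⟩

/-- The three point statements at every auxiliary pair (unconditional). -/
theorem ssPoints : SSPointsStatement :=
  ssPoints_of_cross ssCross

/-- **Unipotent inertia on the torsion of `J₀(N)` at the auxiliary levels** (unconditional). -/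
theorem unipotentTorsionAux : Fermat.Agent.H71.SS.UnipotentTorsionAuxStatement :=
  unipotentTorsionAux_of_ssPoints ssPoints

end Fermat.Agent.H82.SS
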